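import Fermat.Agent.Pic.Bridge.Qcoh

/-!
# Invertible modules on affine schemes

Their global sections form an invertible module, with a dual basis of rank one.
-/

set_option autoImplicit false

noncomputable section

universe u

open CategoryTheory Limits AlgebraicGeometry TopologicalSpace Opposite

namespace FermatAgent.Pic.Dict

variable {R : CommRingCat.{u}}

/-- A basic open of an affine scheme. -/
abbrev dOpen {R : CommRingCat.{u}} (f : R) : (Spec R).Opens := PrimeSpectrum.basicOpen f

/-- Restriction of sections on an affine scheme as a linear map. -/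
def resLin (N : (Spec R).Modules) (U : (Spec R).Opens) : Γ(N, ⊤) →ₗ[R] Γ(N, U) :=
  ((modulesSpecToSheaf.obj N).obj.map U.leTop.op).hom

/-- The sections over the image of a trivialising open immersion. -/
theorem exists_sections_equiv {N : (Spec R).Modules} {A : CommRingCat.{u}} (φ : R ⟶ A)
    [IsOpenImmersion (Spec.map φ)] (e : N.restrict (Spec.map φ) ≅ unitMod (Spec A))
    {U : (Spec R).Opens} (hU : Spec.map φ ''ᵁ ⊤ = U) :
    ∃ h : Γ(N, U) ≃+ A, ∀ (r : R) (y : Γ(N, U)), h (r • y) = φ r * h y := by
  subst hU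
  let e1 : Γ(N, Spec.map φ ''ᵁ ⊤) ≅ Γ(N.restrict (Spec.map φ), ⊤) :=
    (N.restrictAppIso (Spec.map φ) ⊤).symm
  let e2 : moduleSpecΓFunctor.obj (N.restrict (Spec.map φ)) ≅ ModuleCat.of A A :=
    moduleSpecΓFunctor.mapIso (e ≪≫ tildeSelf.symm) ≪≫ (tilde.isoTop (ModuleCat.of A A)).symm
  refine ⟨e1.addCommGroupIsoToAddEquiv.trans e2.toLinearEquiv.toAddEquiv, fun r y => ?_⟩
  have h1 : e1.hom (r • y) = φ r • e1.hom y := by
    apply (ConcreteCategory.bijective_of_isIso (N.restrictAppIso (Spec.map φ) ⊤).hom).injective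
    rw [Scheme.Modules.restrictAppIso_smul_Spec φ]
    show (N.restrictAppIso (Spec.map φ) ⊤).hom
        ((N.restrictAppIso (Spec.map φ) ⊤).inv (r • y)) =
      r • (N.restrictAppIso (Spec.map φ) ⊤).hom ((N.restrictAppIso (Spec.map φ) ⊤).inv y)
    rw [Iso.inv_hom_id_apply, Iso.inv_hom_id_apply]
  show e2.toLinearEquiv (e1.hom (r • y)) = φ r * e2.toLinearEquiv (e1.hom y)
  rw [h1]
  exact e2.toLinearEquiv.map_smul _ _

/-- A trivialisation over a basic open gives a localisation map. -/
theorem exists_localization_map {N : (Spec R).Modules} (hN : Scheme.Modules.IsInvertible N)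
    (x : PrimeSpectrum R) : ∃ f : R, f ∉ x.asIdeal ∧
      ∃ g : Γ(N, ⊤) →ₗ[R] Localization.Away f, IsLocalizedModule (Submonoid.powers f) g := by
  have := isQuasicoherent_of_isInvertible hN
  obtain ⟨f, hfx, ⟨e⟩⟩ := exists_awayIso hN x
  refine ⟨f, hfx, ?_⟩
  have hl : IsLocalizedModule (Submonoid.powers f) (resLin N (dOpen f)) :=
    (isIso_fromTildeΓ_iff_isLocalizing N).mp inferInstance f
  obtain ⟨h, hh⟩ := exists_sections_equiv (CommRingCat.ofHom (algebraMap R (Localization.Away f))) e
    (awayMap_opensRange f)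
  let hR : Γ(N, dOpen f) ≃ₗ[R] Localization.Away f :=
    { h with
      map_smul' := fun r y => (hh r y).trans (Algebra.smul_def r (h y : Localization.Away f)).symm }
  exact ⟨hR.toLinearMap ∘ₗ resLin N (dOpen f),
    IsLocalizedModule.of_linearEquiv (Submonoid.powers f) _ hR⟩

/-- A cover of an affine scheme by trivialisations. -/
theorem exists_localization_cover {N : (Spec R).Modules} (hN : Scheme.Modules.IsInvertible N) :
    ∃ s : Set R, Ideal.span s = ⊤ ∧ ∀ f ∈ s,
      ∃ g : Γ(N, ⊤) →ₗ[R] Localization.Away f, IsLocalizedModule (Submonoid.powers f) g := by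
  refine ⟨{f | ∃ g : Γ(N, ⊤) →ₗ[R] Localization.Away f,
    IsLocalizedModule (Submonoid.powers f) g}, ?_, fun f hf => hf⟩
  by_contra hne
  obtain ⟨I, hI, hle⟩ := Ideal.exists_le_maximal _ hne
  obtain ⟨f, hfx, hg⟩ := exists_localization_map hN ⟨I, hI.isPrime⟩
  exact hfx (hle (Ideal.subset_span hg))

/-- Localising further at a prime. -/
theorem isLocalizedModule_atPrime {M : Type u} [AddCommGroup M] [Module R M] {f : R}
    {g : M →ₗ[R] Localization.Away f} (hg : IsLocalizedModule (Submonoid.powers f) g)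
    (I : Ideal R) [I.IsPrime] (hf : f ∉ I) :
    ∃ g' : M →ₗ[R] Localization.AtPrime I, IsLocalizedModule I.primeCompl g' := by
  have := hg
  let φ : Localization.Away f →ₐ[R] Localization.AtPrime I :=
    { IsLocalization.Away.lift f (g := algebraMap R (Localization.AtPrime I))
        (IsLocalization.map_units (Localization.AtPrime I) (⟨f, hf⟩ : I.primeCompl)) with
      commutes' := fun r => IsLocalization.Away.lift_eq f _ r }
  refine ⟨φ.toLinearMap ∘ₗ g, ⟨fun s => ?_, fun z => ?_, fun {x₁ x₂} h => ?_⟩⟩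
  · rw [Module.End.isUnit_iff]
    exact IsLocalization.smul_bijective (S := Localization.AtPrime I) s
  · obtain ⟨⟨r, s⟩, hz⟩ := IsLocalization.surj I.primeCompl z
    obtain ⟨⟨m, ⟨_, n, rfl⟩⟩, hm⟩ :=
      IsLocalizedModule.surj (Submonoid.powers f) g (algebraMap R _ r)
    refine ⟨⟨m, ⟨f ^ n, I.primeCompl.pow_mem hf n⟩ * s⟩, ?_⟩
    show ((f ^ n) * (s : R)) • z = φ (g m)
    have hm' : g m = (f ^ n) • algebraMap R (Localization.Away f) r := hm.symm
    rw [hm', Algebra.smul_def, Algebra.smul_def, map_mul, map_mul, φ.commutes, φ.commutes, ← hz]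
    ring
  · have h' : φ (g x₁ - g x₂) = 0 := by rw [map_sub]; exact sub_eq_zero.mpr h
    obtain ⟨⟨a, ⟨_, n, rfl⟩⟩, ha⟩ := IsLocalization.surj (Submonoid.powers f) (g x₁ - g x₂)
    have hkey : algebraMap R (Localization.AtPrime I) a = 0 := by
      have := congrArg φ ha
      simp only [map_mul, φ.commutes, h', zero_mul] at this
      exact this.symm
    obtain ⟨c, hc⟩ := (IsLocalization.map_eq_zero_iff I.primeCompl _ a).mp hkey
    have hzero : g ((c : R) • (x₁ - x₂)) = 0 := by
      have hu : IsUnit (algebraMap R (Localization.Away f) (f ^ n)) :=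
        IsLocalization.map_units _ (⟨f ^ n, n, rfl⟩ : Submonoid.powers f)
      rw [← hu.mul_left_eq_zero, map_smul, map_sub, Algebra.smul_def, mul_assoc, ha, ← map_mul, hc,
        map_zero]
    obtain ⟨⟨_, m, rfl⟩, hm⟩ := (IsLocalizedModule.eq_zero_iff (Submonoid.powers f) g).mp hzero
    refine ⟨⟨f ^ m, I.primeCompl.pow_mem hf m⟩ * c, ?_⟩
    show ((f ^ m) * (c : R)) • x₁ = ((f ^ m) * (c : R)) • x₂
    rw [← sub_eq_zero, ← smul_sub, mul_smul]
    exact hm

theorem finitePresentation_sections {N : (Spec R).Modules} (hN : Scheme.Modules.IsInvertible N) :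
    Module.FinitePresentation R Γ(N, ⊤) := by
  obtain ⟨s, hs, hg⟩ := exists_localization_cover hN
  choose g hg using fun f : s => hg f.1 f.2
  exact Module.FinitePresentation.of_localizationSpan' s hs
    (Rₚ := fun f : s => Localization.Away f.1) (Mₚ := fun f : s => Localization.Away f.1) g
    fun f => inferInstance

theorem projective_sections {N : (Spec R).Modules} (hN : Scheme.Modules.IsInvertible N) :
    Module.Projective R Γ(N, ⊤) := by
  have := finitePresentation_sections hN
  refine Module.projective_of_localization_maximal fun I hI => ?_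
  obtain ⟨f, hfx, g, hg⟩ := exists_localization_map hN ⟨I, hI.isPrime⟩
  obtain ⟨g', hg'⟩ := isLocalizedModule_atPrime hg I hfx
  exact Module.Projective.of_equiv
    (LinearEquiv.extendScalarsOfIsLocalization I.primeCompl (Localization.AtPrime I)
      (IsLocalizedModule.iso I.primeCompl g').symm)

/-- Two trivialisations over a basic open differ by a scalar. -/
theorem exists_scalar {M : Type u} [AddCommGroup M] [Module R M] {f : R}
    {g g' : M →ₗ[R] Localization.Away f} (hg : IsLocalizedModule (Submonoid.powers f) g) :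
    ∃ d : Localization.Away f, ∀ m, g' m = d * g m := by
  have := hg
  let l := IsLocalizedModule.lift (Submonoid.powers f) g g'
    (fun s => (Module.End.isUnit_iff _).mpr
      (IsLocalization.smul_bijective (S := Localization.Away f) s))
  let l' : Localization.Away f →ₗ[Localization.Away f] Localization.Away f :=
    LinearMap.extendScalarsOfIsLocalization (Submonoid.powers f) _ l
  refine ⟨l' 1, fun m => ?_⟩
  have h1 : l' (g m) = g' m := IsLocalizedModule.lift_apply (Submonoid.powers f) g g'
    (fun s => (Module.End.isUnit_iff _).mpr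
      (IsLocalization.smul_bijective (S := Localization.Away f) s)) m
  rw [← h1, mul_comm, ← smul_eq_mul, ← map_smul, smul_eq_mul, mul_one]

/-- A dual basis of an invertible module with the properties of rank one. -/
theorem exists_dualBasis {N : (Spec R).Modules} (hN : Scheme.Modules.IsInvertible N) :
    ∃ (n : ℕ) (p : Fin n → Γ(N, ⊤)) (φ : Fin n → Γ(N, ⊤) →ₗ[R] R),
      (∀ m, ∑ i, φ i m • p i = m) ∧ (∑ i, φ i (p i) = 1) ∧
        ∀ (ψ : Γ(N, ⊤) →ₗ[R] R) (a b : Γ(N, ⊤)), ψ a • b = ψ b • a := by
  classical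
  have := projective_sections hN
  have := finitePresentation_sections hN
  obtain ⟨n, F, G, -, -, hFG⟩ := Module.Finite.exists_comp_eq_id_of_projective R Γ(N, ⊤)
  obtain ⟨s, hs, hcov⟩ := exists_localization_cover hN
  have hfg : ∀ m, F (G m) = m := fun m => congr($hFG m)
  refine ⟨n, fun i => F (Pi.single i 1), fun i => LinearMap.proj i ∘ₗ G, fun m => ?_, ?_, ?_⟩
  · show ∑ i, G m i • F (Pi.single i 1) = m
    rw [← Finset.sum_congr rfl fun i _ => map_smul F (G m i) (Pi.single i 1), ← map_sum,
      ← pi_eq_sum_univ' (G m), hfg]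
  all_goals
    have key : ∀ f ∈ s, ∀ ψ : Γ(N, ⊤) →ₗ[R] R, ∃ (g : Γ(N, ⊤) →ₗ[R] Localization.Away f)
        (c : Localization.Away f), IsLocalizedModule (Submonoid.powers f) g ∧
          ∀ m, algebraMap R (Localization.Away f) (ψ m) = c * g m := fun f hf ψ => by
      obtain ⟨g, hg⟩ := hcov f hf
      have := hg
      let ψ' := IsLocalizedModule.map (Submonoid.powers f) g
        (Algebra.linearMap R (Localization.Away f)) ψ
      let ψ'' : Localization.Away f →ₗ[Localization.Away f] Localization.Away f :=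
        LinearMap.extendScalarsOfIsLocalization (Submonoid.powers f) _ ψ'
      refine ⟨g, ψ'' 1, hg, fun m => ?_⟩
      have h1 : ψ'' (g m) = algebraMap R (Localization.Away f) (ψ m) :=
        IsLocalizedModule.map_apply (Submonoid.powers f) g _ ψ m
      rw [← h1, mul_comm, ← smul_eq_mul, ← map_smul, smul_eq_mul, mul_one]
  · have h0 : ∀ f : s, ∃ n : ℕ, (f : R) ^ n •
        ((∑ i, (LinearMap.proj i ∘ₗ G) (F (Pi.single i 1))) - 1) ∈
          (⊥ : Submodule R R) := fun f => by
      obtain ⟨g, hg⟩ := hcov f.1 f.2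
      have := hg
      choose g' c hg' hc using fun i => key f.1 f.2 (LinearMap.proj i ∘ₗ G)
      obtain ⟨⟨m, ⟨_, n, rfl⟩⟩, hm⟩ :=
        IsLocalizedModule.surj (Submonoid.powers (f : R)) g (1 : Localization.Away (f : R))
      have hm1 : ((f : R) ^ n) • (1 : Localization.Away (f : R)) = g m := hm
      have hm' : g m = algebraMap R (Localization.Away (f : R)) ((f : R) ^ n) :=
        hm1.symm.trans (Algebra.algebraMap_eq_smul_one _).symm
      have hu : IsUnit (g m) := hm' ▸ IsLocalization.map_units _
        (⟨(f : R) ^ n, n, rfl⟩ : Submonoid.powers (f : R))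
      set T := ∑ i, (LinearMap.proj i ∘ₗ G) (F (Pi.single i 1))
      have hsum : g m = algebraMap R (Localization.Away (f : R)) T * g m := by
        conv_lhs => rw [show m = ∑ i, G m i • F (Pi.single i 1) by
          rw [← Finset.sum_congr rfl fun i _ => map_smul F (G m i) (Pi.single i 1), ← map_sum,
            ← pi_eq_sum_univ' (G m), hfg]]
        rw [map_sum, map_sum, Finset.sum_mul]
        refine Finset.sum_congr rfl fun i _ => ?_
        rw [map_smul, Algebra.smul_def]
        obtain ⟨d, hd⟩ := exists_scalar (g' := g' i) hg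
        have e1 := hc i m
        have e2 := hc i (F (Pi.single i 1))
        rw [hd] at e1 e2
        show algebraMap R _ ((LinearMap.proj i ∘ₗ G) m) * g (F (Pi.single i 1)) = _
        rw [e1, e2]
        ring
      have h1 : algebraMap R (Localization.Away (f : R)) (T - 1) = 0 := by
        rw [map_sub, map_one, sub_eq_zero]
        exact (hu.mul_right_cancel (hsum.symm.trans (one_mul _).symm))
      obtain ⟨⟨_, j, rfl⟩, hj⟩ :=
        (IsLocalization.map_eq_zero_iff (Submonoid.powers (f : R)) _ _).mp h1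
      exact ⟨j, (Submodule.mem_bot R).mpr hj⟩
    exact sub_eq_zero.mp ((Submodule.mem_bot R).mp
      (Submodule.mem_of_span_eq_top_of_smul_pow_mem _ s hs _ h0))
  · intro ψ a b
    have h0 : ∀ f : s, ∃ n : ℕ, (f : R) ^ n • (ψ a • b - ψ b • a) ∈
        (⊥ : Submodule R Γ(N, ⊤)) := fun f => by
      obtain ⟨g, c, hg, hc⟩ := key f.1 f.2 ψ
      have := hg
      have h1 : g (ψ a • b - ψ b • a) = 0 := by
        rw [map_sub, map_smul, map_smul, Algebra.smul_def, Algebra.smul_def, hc a, hc b]
        ring
      obtain ⟨⟨_, j, rfl⟩, hj⟩ := (IsLocalizedModule.eq_zero_iff (Submonoid.powers (f : R)) g).mp h1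
      exact ⟨j, (Submodule.mem_bot R).mpr hj⟩
    exact sub_eq_zero.mp ((Submodule.mem_bot R).mp
      (Submodule.mem_of_span_eq_top_of_smul_pow_mem _ s hs _ h0))

end FermatAgent.Pic.Dict
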