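import Fermat.Agent.Pic.Pres

/-!
# The two charts of a curve over an affine base

For an affine base the charts `Spec (A ⊗ R)` are the inverse images of the charts of the curve,
with restriction maps compatible with base change.
-/

set_option autoImplicit false

noncomputable section

universe u

open CategoryTheory CategoryTheory.Limits AlgebraicGeometry NeronModelInfra
  AlgebraicGeometry.RelPicard
open scoped TensorProduct

namespace FermatAgent.Pic.Dict

variable {k : Type u} [Field k] {C : Scheme.{u}} {c : C ⟶ Spec (CommRingCat.of k)}
variable (A : Type u) [CommRing A] [Algebra k A]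

/-- The curve over `A`. -/
abbrev CA (c : C ⟶ Spec (CommRingCat.of k)) : Scheme.{u} := pullback c (tA (k := k) A)

/-- The inclusion of a coordinate ring into its base change. -/
abbrev incR (R : Type u) [CommRing R] [Algebra k R] :
    CommRingCat.of R ⟶ CommRingCat.of (A ⊗[k] R) :=
  CommRingCat.ofHom Algebra.TensorProduct.includeRight.toRingHom

/-- The inclusion of the parameters. -/
abbrev incA (R : Type u) [CommRing R] [Algebra k R] :
    CommRingCat.of A ⟶ CommRingCat.of (A ⊗[k] R) :=
  CommRingCat.ofHom Algebra.TensorProduct.includeLeftRingHom

variable {R : Type u} [CommRing R] [Algebra k R]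

/-- The base change of a chart. -/
def chart (i : Spec (CommRingCat.of R) ⟶ C)
    (hi : i ≫ c = Spec.map (CommRingCat.ofHom (algebraMap k R))) :
    Spec (CommRingCat.of (A ⊗[k] R)) ⟶ CA A c :=
  pullback.lift (Spec.map (incR A R) ≫ i) (Spec.map (incA A R)) (by
    rw [Category.assoc, hi, ← Spec.map_comp, ← Spec.map_comp]
    congr 1
    ext x
    show (1 : A) ⊗ₜ[k] algebraMap k R x = algebraMap k A x ⊗ₜ[k] (1 : R)
    rw [Algebra.algebraMap_eq_smul_one, Algebra.algebraMap_eq_smul_one, TensorProduct.smul_tmul])

variable (i : Spec (CommRingCat.of R) ⟶ C)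
  (hi : i ≫ c = Spec.map (CommRingCat.ofHom (algebraMap k R)))

/-- The first projection of a chart over `A` is the chart of the curve after projection. -/
@[reassoc]
theorem chart_fst : chart A i hi ≫ pullback.fst c (tA A) = Spec.map (incR A R) ≫ i :=
  pullback.lift_fst _ _ _

/-- The second projection of a chart over `A` is the structure map. -/
@[reassoc]
theorem chart_snd : chart A i hi ≫ pullback.snd c (tA A) = Spec.map (incA A R) :=
  pullback.lift_snd _ _ _

/-- A chart over `A` is the base change of the chart of the curve. -/
theorem isPullback_chart :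
    IsPullback (Spec.map (incR A R)) (chart A i hi) i (pullback.fst c (tA A)) := by
  have h1 : IsPullback (Spec.map (incA A R)) (Spec.map (incR A R))
      (tA (k := k) A) (Spec.map (CommRingCat.ofHom (algebraMap k R))) :=
    isPullback_SpecMap_of_isPushout _ _ _ _ (CommRingCat.isPushout_tensorProduct k A R)
  have h2 := h1.flip
  rw [← chart_snd A i hi, ← hi] at h2
  exact IsPullback.of_bot h2 (chart_fst A i hi).symm (IsPullback.of_hasPullback c (tA A))

/-- The base change of an open chart is an open chart. -/
instance isOpenImmersion_chart [IsOpenImmersion i] : IsOpenImmersion (chart A i hi) :=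
  MorphismProperty.of_isPullback (isPullback_chart A i hi) inferInstance

/-- The image of a chart over `A` is the inverse image of that of the chart of the curve. -/
theorem range_chart : Set.range (chart A i hi) = pullback.fst c (tA A) ⁻¹' Set.range i := by
  have h := (isPullback_chart A i hi).isoPullback_hom_snd
  conv_lhs => rw [← h]
  rw [Scheme.Hom.comp_base, TopCat.coe_comp, Set.range_comp,
    Set.range_eq_univ.mpr (isPullback_chart A i hi).isoPullback.hom.surjective,
    Set.image_univ, Scheme.Pullback.range_snd]

/-- The inclusion of a smaller chart after base change. -/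
abbrev resA {R' : Type u} [CommRing R'] [Algebra k R'] (g : R →ₐ[k] R') :
    CommRingCat.of (A ⊗[k] R) ⟶ CommRingCat.of (A ⊗[k] R') :=
  CommRingCat.ofHom (Algebra.TensorProduct.map (AlgHom.id A A) g).toRingHom

variable {R' : Type u} [CommRing R'] [Algebra k R'] (g : R →ₐ[k] R')
  (i' : Spec (CommRingCat.of R') ⟶ C)
  (hi' : i' ≫ c = Spec.map (CommRingCat.ofHom (algebraMap k R')))
  (hg : Spec.map (CommRingCat.ofHom g.toRingHom) ≫ i = i')

theorem incR_resA : incR A R ≫ resA A g = CommRingCat.ofHom g.toRingHom ≫ incR A R' := by
  ext x
  simp [resA, incR]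

theorem incA_resA : incA A R ≫ resA A g = incA A R' := by
  ext x
  simp [resA, incA]

include hg in
/-- Restriction to a smaller chart commutes with base change. -/
theorem chart_res : Spec.map (resA A g) ≫ chart A i hi = chart A i' hi' := by
  apply pullback.hom_ext
  · rw [Category.assoc, chart_fst, chart_fst, ← Category.assoc, ← Spec.map_comp, incR_resA,
      Spec.map_comp, Category.assoc, hg]
  · rw [Category.assoc, chart_snd, chart_snd, ← Spec.map_comp, incA_resA]

/-! ### Change of parameters -/

variable {A} {B : Type u} [CommRing B] [Algebra k B] (f : A →ₐ[k] B)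

/-- The charts commute with change of the base algebra. -/
theorem chart_baseChange :
    chart B i hi ≫ baseChangeSnd c (overAlg f) =
      Spec.map (CommRingCat.ofHom (Algebra.TensorProduct.map f (AlgHom.id k R)).toRingHom) ≫
        chart A i hi := by
  apply pullback.hom_ext
  · simp only [baseChangeSnd, Category.assoc, pullback.lift_fst, Category.comp_id]
    rw [chart_fst, chart_fst, ← Category.assoc, ← Spec.map_comp]
    congr 2
    ext x
    simp [incR]
  · simp only [baseChangeSnd, Category.assoc, pullback.lift_snd]
    rw [chart_snd, chart_snd_assoc, ← Spec.map_comp]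
    show Spec.map _ ≫ Spec.map _ = _
    rw [← Spec.map_comp]
    congr 1

end FermatAgent.Pic.Dict
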