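import Fermat.Agent.Pic.Bridge.ToBdl

/-!
# Functoriality of the bundle of an invertible module

Isomorphic invertible modules have isomorphic bundles, and the structure sheaf has the trivial
bundle.
-/

set_option autoImplicit false

noncomputable section

universe u

open CategoryTheory CategoryTheory.Limits AlgebraicGeometry NeronModelInfra
  AlgebraicGeometry.RelPicard
open scoped TensorProduct

namespace FermatAgent.Pic.Dict

variable {k : Type u} [Field k] {C : Scheme.{u}} {c : C ⟶ Spec (CommRingCat.of k)}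
  {ε : SchemeHomOver (𝟙 (Spec (CommRingCat.of k))) c} (P : Pres c ε)
  {A : Type u} [CommRing A] [Algebra k A]

/-- The isomorphism of sections induced by an isomorphism of modules. -/
def secIso {R : CommRingCat.{u}} {X : Scheme.{u}} (j : Spec R ⟶ X) {L L' : X.Modules}
    (i : L ≅ L') : Sec j L ≃ₗ[R] Sec j L' :=
  (moduleSpecΓFunctor.mapIso ((Scheme.Modules.pullback j).mapIso i)).toLinearEquiv

theorem secIso_pull {R S : CommRingCat.{u}} (φ : R ⟶ S) {X : Scheme.{u}} {j : Spec R ⟶ X}
    {j' : Spec S ⟶ X} (h : Spec.map φ ≫ j = j') {L L' : X.Modules} (i : L ≅ L') (x : Sec j L) :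
    secIso j' i (pull (Spec.map φ) h L x) = pull (Spec.map φ) h L' (secIso j i x) :=
  pull_natural (Spec.map φ) h i.hom x

theorem exists_pull_congr {R S : CommRingCat.{u}} (φ : R ⟶ S) {X : Scheme.{u}} {j : Spec R ⟶ X}
    {j' : Spec S ⟶ X} (h : Spec.map φ ≫ j = j') {L L' : X.Modules} (i : L ≅ L') (m : Sec j' L) :
    (∃ x, pull (Spec.map φ) h L' x = secIso j' i m) ↔ ∃ x, pull (Spec.map φ) h L x = m := by
  constructor
  · rintro ⟨x, hx⟩
    obtain ⟨y, rfl⟩ := (secIso j i).surjective x
    exact ⟨y, (secIso j' i).injective ((secIso_pull φ h i y).trans hx)⟩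
  · rintro ⟨x, rfl⟩
    exact ⟨secIso j i x, (secIso_pull φ h i x).symm⟩

theorem exists_res0_congr {L L' : (CA A c).Modules} (i : L ≅ L') (m : Mid P L) :
    (∃ x, res0M P L' x = secIso (j01 P A) i m) ↔ ∃ x, res0M P L x = m :=
  exists_pull_congr (r0 P A) rfl i m

theorem exists_res1_congr {L L' : (CA A c).Modules} (i : L ≅ L') (m : Mid P L) :
    (∃ x, res1M P L' x = secIso (j01 P A) i m) ↔ ∃ x, res1M P L x = m :=
  exists_pull_congr (r1 P A) (r1_j1 P A) i m

/-- The map on the overlap, over the ring of the bundle. -/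
def midIso {L L' : (CA A c).Modules} (i : L ≅ L') : Mid P L ≃ₗ[P.X.S01 A] Mid P L' :=
  secIso (j01 P A) i

/-- Isomorphic invertible modules have isomorphic bundles. -/
theorem toBdl_congr {L L' : (CA A c).Modules} (hL : Scheme.Modules.IsInvertible L)
    (hL' : Scheme.Modules.IsInvertible L') (i : L ≅ L') :
    Nonempty (Bdl.Iso (toBdl P L hL) (toBdl P L' hL')) :=
  ⟨⟨midIso P i,
    fun m => (mem_L0_toBdl P hL' _).trans
      ((exists_res0_congr P i m).trans (mem_L0_toBdl P hL m).symm),
    fun m => (mem_L1_toBdl P hL' _).trans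
      ((exists_res1_congr P i m).trans (mem_L1_toBdl P hL m).symm)⟩⟩

/-! ### The unit -/

/-- The section one on an affine scheme over `X`. -/
def genOne {R : CommRingCat.{u}} {X : Scheme.{u}} (j : Spec R ⟶ X) : Sec j (unitMod X) :=
  sec j (unitMod X) (oneSec X)

/-- The sections of the structure sheaf. -/
def oneSecEquiv {R : CommRingCat.{u}} {X : Scheme.{u}} (j : Spec R ⟶ X) :
    (R : Type u) ≃ₗ[R] Sec j (unitMod X) :=
  LinearEquiv.ofBijective (LinearMap.toSpanSingleton R (Sec j (unitMod X)) (genOne j)) (by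
    have h : (fun r : R => r • genOne j) =
        (fun r : Γ(Spec R, ⊤) => r • genOne j) ∘ fun r : R => (Scheme.ΓSpecIso R).inv r :=
      funext fun r => by
        show r • genOne j = (Scheme.ΓSpecIso R).inv r • genOne j
        rw [Scheme.Modules.smul_Spec_def, top_map_self]
    show Function.Bijective fun r : R => r • genOne j
    rw [h]
    exact (sec_one_bijective j).comp (ConcreteCategory.bijective_of_isIso _))

theorem oneSecEquiv_pull {R S : CommRingCat.{u}} (φ : R ⟶ S) {X : Scheme.{u}} {j : Spec R ⟶ X}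
    {j' : Spec S ⟶ X} (h : Spec.map φ ≫ j = j') (r : R) :
    pull (Spec.map φ) h (unitMod X) (oneSecEquiv j r) = oneSecEquiv j' (φ r) := by
  show pull (Spec.map φ) h (unitMod X) (r • genOne j) = φ r • genOne j'
  rw [pull_smul_spec]
  exact congrArg _ (pull_sec (Spec.map φ) h (unitMod X) (oneSec X))

theorem exists_pull_oneSec {R S : CommRingCat.{u}} (φ : R ⟶ S) {X : Scheme.{u}} {j : Spec R ⟶ X}
    {j' : Spec S ⟶ X} (h : Spec.map φ ≫ j = j') (s : S) :
    (∃ x, pull (Spec.map φ) h (unitMod X) x = oneSecEquiv j' s) ↔ s ∈ φ.hom.range := by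
  constructor
  · rintro ⟨x, hx⟩
    obtain ⟨a, rfl⟩ := (oneSecEquiv j).surjective x
    exact ⟨a, (oneSecEquiv j').injective ((oneSecEquiv_pull φ h a).symm.trans hx)⟩
  · rintro ⟨a, rfl⟩
    exact ⟨oneSecEquiv j a, oneSecEquiv_pull φ h a⟩

theorem exists_res0_oneSec (s : R01 P A) :
    (∃ x, res0M P (unitMod (CA A c)) x = oneSecEquiv (j01 P A) s) ↔
      s ∈ (P.X.res0 A).toRingHom.range :=
  exists_pull_oneSec (r0 P A) rfl s

theorem exists_res1_oneSec (s : R01 P A) :
    (∃ x, res1M P (unitMod (CA A c)) x = oneSecEquiv (j01 P A) s) ↔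
      s ∈ (P.X.res1 A).toRingHom.range :=
  exists_pull_oneSec (r1 P A) (r1_j1 P A) s

/-- The sections of the structure sheaf on the overlap. -/
def midOne : P.X.S01 A ≃ₗ[P.X.S01 A] Mid P (unitMod (CA A c)) := oneSecEquiv (j01 P A)

/-- The bundle of the structure sheaf is trivial. -/
theorem toBdl_unit :
    Nonempty (Bdl.Iso (toBdl P (unitMod (CA A c)) (Scheme.Modules.isInvertible_unit _))
      (Bdl.one P.X A)) := by
  let i : Bdl.Iso (Bdl.one P.X A)
      (toBdl P (unitMod (CA A c)) (Scheme.Modules.isInvertible_unit _)) :=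
    ⟨midOne P,
      fun s => (mem_L0_toBdl P _ _).trans
        ((exists_res0_oneSec P s).trans Bdl.mem_L0_one'.symm),
      fun s => (mem_L1_toBdl P _ _).trans
        ((exists_res1_oneSec P s).trans Bdl.mem_L1_one'.symm)⟩
  exact Bdl.isoSetoid.iseqv.symm ⟨i⟩

end FermatAgent.Pic.Dict
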