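import Fermat.Agent.Pic.Bridge.Over
import Fermat.Agent.Pic.Glue.Descend

/-!
# Sections over opens and sections of inverse images

Below the range of an open immersion the unit of the inverse image is bijective, so morphisms of
inverse images are morphisms over the range.
-/

set_option autoImplicit false

noncomputable section

universe u

open CategoryTheory Limits AlgebraicGeometry TopologicalSpace Opposite

namespace FermatAgent.Pic.Dict

open Glue (mres rres HomOn IsoOn)

variable {X Y Z : Scheme.{u}}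

theorem η_mres (j : Y ⟶ X) (L : X.Modules) {V V' : X.Opens} (h : V' ≤ V) (s : Γ(L, V)) :
    mres _ (j.preimage_mono h) (η j L V s) = η j L V' (mres L h s) :=
  (HomOn.ofHom ⊤ ((Scheme.Modules.pullbackPushforwardAdjunction j).unit.app L)).nat V V' le_top h s

set_option backward.isDefEq.respectTransparency.types false in
theorem η_eq (j : Y ⟶ X) [IsOpenImmersion j] (L : X.Modules) (V : X.Opens) (s : Γ(L, V)) :
    η j L V s = ((Scheme.Modules.restrictFunctorIsoPullback j).hom.app L).app
      (j ⁻¹ᵁ V) (mres L (j.image_preimage_le V) s) :=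
  (congr($(Adjunction.unit_leftAdjointUniq_hom_app (Scheme.Modules.restrictAdjunction j)
    (Scheme.Modules.pullbackPushforwardAdjunction j) L).app V s)).symm

/-- Below the range of an open immersion the unit of the inverse image is bijective on sections. -/
theorem η_bijective (j : Y ⟶ X) [IsOpenImmersion j] (L : X.Modules) {V : X.Opens}
    (h : V ≤ j.opensRange) : Function.Bijective (η j L V) := by
  rw [show η j L V = _ from funext (η_eq j L V)]
  exact (ConcreteCategory.bijective_of_isIso
    (((Scheme.Modules.restrictFunctorIsoPullback j).hom.app L).app (j ⁻¹ᵁ V))).comp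
      (Glue.mres_bijective_of_le _ (HomOn.le_image_preimage j h))

/-- A section over an open containing the image, as a section of the inverse image. -/
def secOn (j : Y ⟶ X) (L : X.Modules) (W : X.Opens) (h : ⊤ ≤ j ⁻¹ᵁ W) : Γ(L, W) →+ Sec j L :=
  (mres _ h).comp (AddMonoidHom.mk' (η j L W) (η_add j L W))

theorem secOn_apply (j : Y ⟶ X) (L : X.Modules) (W : X.Opens) (h : ⊤ ≤ j ⁻¹ᵁ W) (s : Γ(L, W)) :
    secOn j L W h s = mres _ h (η j L W s) := rfl

/-- Sections over an open inside the range are the sections of the inverse image. -/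
theorem secOn_bijective (j : Y ⟶ X) [IsOpenImmersion j] (L : X.Modules) {W : X.Opens}
    (hW : W ≤ j.opensRange) (h : ⊤ ≤ j ⁻¹ᵁ W) : Function.Bijective (secOn j L W h) :=
  (Glue.mres_bijective_of_le (M := (Scheme.Modules.pullback j).obj L) h le_top).comp
    (η_bijective j L hW)

/-- The comparison of sections over opens is natural. -/
theorem secOn_natural (j : Y ⟶ X) {L L' : X.Modules} (φ : L ⟶ L') (W : X.Opens)
    (h : ⊤ ≤ j ⁻¹ᵁ W) (s : Γ(L, W)) :
    ((Scheme.Modules.pullback j).map φ).app ⊤ (secOn j L W h s) = secOn j L' W h (φ.app W s) := by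
  rw [secOn_apply, secOn_apply, ← η_natural]
  exact ((HomOn.ofHom ⊤ ((Scheme.Modules.pullback j).map φ)).nat _ ⊤ le_top h _).symm

theorem secOn_mres (j : Y ⟶ X) (L : X.Modules) {W W' : X.Opens} (hW : W' ≤ W)
    (h : ⊤ ≤ j ⁻¹ᵁ W') (s : Γ(L, W)) :
    secOn j L W' h (mres L hW s) = secOn j L W (h.trans (j.preimage_mono hW)) s := by
  rw [secOn_apply, secOn_apply, ← η_mres, Glue.mres_mres]

/-- The inverse image of sections over opens. -/
theorem pull_secOn (g : Z ⟶ Y) {j : Y ⟶ X} {j' : Z ⟶ X} (hg : g ≫ j = j') (L : X.Modules)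
    {W W' : X.Opens} (hW : W' ≤ W) (h : ⊤ ≤ j ⁻¹ᵁ W) (h' : ⊤ ≤ j' ⁻¹ᵁ W') (s : Γ(L, W)) :
    pull g hg L (secOn j L W h s) = secOn j' L W' h' (mres L hW s) := by
  subst hg
  rw [secOn_mres, secOn_apply, secOn_apply, pull_apply, ← η_comp, ← η_mres g _ h]
  exact ((HomOn.ofHom ⊤ ((Scheme.Modules.pullbackComp g j).hom.app L)).nat
    (g ⁻¹ᵁ (j ⁻¹ᵁ W)) ⊤ le_top (g.preimage_mono h) (η g _ _ (η j L W s))).symm

/-- The counit on sections over opens. -/
theorem counit_secOn (j : Y ⟶ X) (N : Y.Modules) (W : X.Opens) (h : ⊤ ≤ j ⁻¹ᵁ W)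
    (s : Γ((Scheme.Modules.pushforward j).obj N, W)) :
    ((Scheme.Modules.pullbackPushforwardAdjunction j).counit.app N).app ⊤
        (secOn j _ W h s) = mres N h s := by
  have e : ((Scheme.Modules.pullbackPushforwardAdjunction j).counit.app N).app (j ⁻¹ᵁ W)
      (η j _ W s) = s :=
    congr($((Scheme.Modules.pullbackPushforwardAdjunction j).right_triangle_components N).app W s)
  rw [secOn_apply]
  refine ((HomOn.ofHom ⊤ ((Scheme.Modules.pullbackPushforwardAdjunction j).counit.app N)).nat
    (j ⁻¹ᵁ W) ⊤ le_top h _).symm.trans ?_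
  exact congrArg (mres N h) e

/-- The isomorphism over the range given by an isomorphism of inverse images. -/
theorem η_ofPullbackIso (j : Y ⟶ X) [IsOpenImmersion j] {L L' : X.Modules}
    (θ : (Scheme.Modules.pullback j).obj L ≅ (Scheme.Modules.pullback j).obj L') (V : X.Opens)
    (h : V ≤ j.opensRange) (s : Γ(L, V)) :
    η j L' V ((IsoOn.ofPullbackIso j θ).hom.app V h s) = θ.hom.app (j ⁻¹ᵁ V) (η j L V s) := by
  rw [η_eq, η_eq]
  refine (congrArg _ ((Glue.mres_mres _ _ _).trans (Glue.mres_self _ _))).trans ?_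
  exact congr($(((Scheme.Modules.restrictFunctorIsoPullback j).app L').inv_hom_id).app _ _)

theorem pullbackComp_app_map (g : Z ⟶ Y) (j : Y ⟶ X) {L L' : X.Modules}
    (θ : (Scheme.Modules.pullback j).obj L ⟶ (Scheme.Modules.pullback j).obj L') :
    ∃ θ' : (Scheme.Modules.pullback (g ≫ j)).obj L ⟶ (Scheme.Modules.pullback (g ≫ j)).obj L',
      ∀ U x, θ'.app U (((Scheme.Modules.pullbackComp g j).hom.app L).app U x) =
        ((Scheme.Modules.pullbackComp g j).hom.app L').app U
          (((Scheme.Modules.pullback g).map θ).app U x) :=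
  ⟨(Scheme.Modules.pullbackComp g j).inv.app L ≫ (Scheme.Modules.pullback g).map θ ≫
      (Scheme.Modules.pullbackComp g j).hom.app L',
    fun U x => congrArg (fun y => ((Scheme.Modules.pullbackComp g j).hom.app L').app U
        (((Scheme.Modules.pullback g).map θ).app U y))
      (congr($((Scheme.Modules.pullbackComp g j).hom_inv_id_app L).app U x))⟩

/-- A morphism of inverse images restricts along a triangle. -/
theorem exists_pullHom (g : Z ⟶ Y) {j : Y ⟶ X} {j' : Z ⟶ X} (hg : g ≫ j = j') {L L' : X.Modules}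
    (θ : (Scheme.Modules.pullback j).obj L ⟶ (Scheme.Modules.pullback j).obj L') :
    ∃ θ' : (Scheme.Modules.pullback j').obj L ⟶ (Scheme.Modules.pullback j').obj L',
      (∀ x, θ'.app ⊤ (pull g hg L x) = pull g hg L' (θ.app ⊤ x)) ∧
      ∀ V s t, η j L' V t = θ.app (j ⁻¹ᵁ V) (η j L V s) →
        η j' L' V t = θ'.app (j' ⁻¹ᵁ V) (η j' L V s) := by
  subst hg
  obtain ⟨θ', hθ'⟩ := pullbackComp_app_map g j θ
  refine ⟨θ', fun x => ?_, fun V s t ht => ?_⟩
  · rw [pull_apply, pull_apply]
    refine (hθ' ⊤ _).trans ?_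
    exact congrArg _ (η_natural g θ ⊤ x)
  · refine ((η_comp g j L' V t).symm.trans ?_).trans
      (congrArg (θ'.app ((g ≫ j) ⁻¹ᵁ V)) (η_comp g j L V s))
    refine Eq.trans ?_ (hθ' (g ⁻¹ᵁ (j ⁻¹ᵁ V)) (η g _ _ (η j L V s))).symm
    rw [ht]
    exact congrArg _ (η_natural g θ _ _).symm

/-- Morphisms on sections over an affine scheme as linear maps. -/
def topLin {R : CommRingCat.{u}} {N N' : (Spec R).Modules} (a : N ⟶ N') : Γ(N, ⊤) →ₗ[R] Γ(N', ⊤) :=
  (moduleSpecΓFunctor.map a).hom

end FermatAgent.Pic.Dict
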