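import Fermat.Agent.Pic.Bridge.ToBdl
import Fermat.Agent.Pic.Bridge.LocalSec

/-!
# Invertible modules with isomorphic bundles are isomorphic

An isomorphism of bundles gives isomorphisms on the two charts agreeing on the overlap, which
glue.
-/

set_option autoImplicit false

noncomputable section

universe u

open CategoryTheory CategoryTheory.Limits AlgebraicGeometry NeronModelInfra
  AlgebraicGeometry.RelPicard TopologicalSpace
open scoped TensorProduct

namespace FermatAgent.Pic.Dict

open Glue (mres rres HomOn IsoOn)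

section General

variable {R S : CommRingCat.{u}} {X : Scheme.{u}}

theorem topLin_apply {N N' : (Spec R).Modules} (a : N ⟶ N') (x : Γ(N, ⊤)) :
    topLin a x = a.app ⊤ x := rfl

/-- Morphisms are equal if they agree on inverse images of sections. -/
theorem hom_eq_of_pull (φ : R ⟶ S) {j : Spec R ⟶ X} {j' : Spec S ⟶ X}
    (h : Spec.map φ ≫ j = j') {L : X.Modules} (hL : Scheme.Modules.IsInvertible L)
    {N : (Spec S).Modules} {a b : (Scheme.Modules.pullback j').obj L ⟶ N}
    (e : ∀ x, a.app ⊤ (pull (Spec.map φ) h L x) = b.app ⊤ (pull (Spec.map φ) h L x)) : a = b := by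
  have := isQuasicoherent_of_isInvertible (hL.pullback j')
  obtain ⟨n, p, f, hs, -, -⟩ := exists_sec_dualBasis j hL
  obtain ⟨f', -, hy⟩ := exists_pull_dualBasis φ h hL p f hs
  refine sections_hom_ext fun y => ?_
  rw [← topLin_apply, ← topLin_apply, ← hy y, map_sum, map_sum]
  exact Finset.sum_congr rfl fun i _ => by
    rw [map_smul, map_smul, topLin_apply, topLin_apply, e]

theorem exists_chart_hom (φ : R ⟶ S) (hφ : Function.Injective φ) {j : Spec R ⟶ X}
    {j' : Spec S ⟶ X} (h : Spec.map φ ≫ j = j') {L L' : X.Modules}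
    (hL : Scheme.Modules.IsInvertible L) (hL' : Scheme.Modules.IsInvertible L')
    (e : Sec j' L →ₗ[S] Sec j' L')
    (he : ∀ x, ∃ x', pull (Spec.map φ) h L' x' = e (pull (Spec.map φ) h L x)) :
    ∃ θ : (Scheme.Modules.pullback j).obj L ⟶ (Scheme.Modules.pullback j).obj L',
      ∀ x, pull (Spec.map φ) h L' (θ.app ⊤ x) = e (pull (Spec.map φ) h L x) := by
  have := isQuasicoherent_of_isInvertible (hL.pullback j)
  choose l hl using he
  have inj := pull_spec_injective φ hφ h hL'
  let l' : Sec j L →ₗ[R] Sec j L' :=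
    { toFun := l
      map_add' := fun x y => inj (by rw [map_add, hl, hl, hl, map_add, map_add])
      map_smul' := fun r x => inj (by
        rw [hl, pull_smul_spec, map_smul, RingHom.id_apply, pull_smul_spec, hl]) }
  obtain ⟨θ, hθ⟩ := exists_hom_of_linear (N' := (Scheme.Modules.pullback j).obj L') l'
  exact ⟨θ, fun x => by rw [hθ]; exact hl x⟩

end General

variable {k : Type u} [Field k] {C : Scheme.{u}} {c : C ⟶ Spec (CommRingCat.of k)}
  {ε : SchemeHomOver (𝟙 (Spec (CommRingCat.of k))) c} (P : Pres c ε)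
  (A : Type u) [CommRing A] [Algebra k A]

instance isOpenImmersion_j0 : IsOpenImmersion (j0 P A) :=
  haveI := P.open0
  isOpenImmersion_chart A P.i0 P.over0

instance isOpenImmersion_j1 : IsOpenImmersion (j1 P A) :=
  haveI := P.open1
  isOpenImmersion_chart A P.i1 P.over1

/-- The image of the overlap is the intersection of the images of the charts. -/
theorem range_j01 : Set.range (j01 P A) = Set.range (j0 P A) ∩ Set.range (j1 P A) := by
  rw [j01_eq_chart]
  refine (range_chart A _ (over01 P)).trans ?_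
  refine Eq.trans ?_
    (congrArg₂ (· ∩ ·) (range_chart A P.i0 P.over0) (range_chart A P.i1 P.over1)).symm
  rw [← Set.preimage_inter]
  congr 1
  have h := P.overlap.isoPullback_hom_fst
  rw [i01, ← h, Category.assoc, Scheme.Hom.comp_base, TopCat.coe_comp, Set.range_comp,
    Set.range_eq_univ.mpr P.overlap.isoPullback.hom.surjective, Set.image_univ,
    Scheme.Pullback.range_fst_comp]

instance isOpenImmersion_j01 : IsOpenImmersion (j01 P A) := by
  have := P.open0
  have := P.open1
  have : IsOpenImmersion (Spec.map (CommRingCat.ofHom (algebraMap P.X.R0 P.X.R01))) :=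
    MorphismProperty.of_isPullback P.overlap.flip P.open1
  have : IsOpenImmersion (i01 P) := IsOpenImmersion.comp (f := Spec.map _) (g := P.i0)
  rw [j01_eq_chart]
  exact isOpenImmersion_chart A _ (over01 P)

/-- The two charts cover the curve over `A`. -/
theorem cover_charts : (⊤ : (CA A c).Opens) ≤ (j0 P A).opensRange ⊔ (j1 P A).opensRange := by
  have := P.open0
  have := P.open1
  intro z _
  have h : pullback.fst c (tA A) z ∈ Set.range P.i0 ∪ Set.range P.i1 := P.cover ▸ trivial
  rcases h with h | h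
  · exact Or.inl ((Set.ext_iff.mp (range_chart A P.i0 P.over0) z).mpr h)
  · exact Or.inr ((Set.ext_iff.mp (range_chart A P.i1 P.over1) z).mpr h)

/-- An open inside both charts lies in the overlap. -/
theorem le_range_j01 {V : (CA A c).Opens} (h0 : V ≤ (j0 P A).opensRange)
    (h1 : V ≤ (j1 P A).opensRange) : V ≤ (j01 P A).opensRange := fun z hz =>
  (Set.ext_iff.mp (range_j01 P A) z).mpr ⟨h0 hz, h1 hz⟩

/-- Restriction from the first chart to the overlap is injective over `A`. -/
theorem r0_injective : Function.Injective (r0 P A) := P.X.res0_injective A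

/-- Restriction from the second chart to the overlap is injective over `A`. -/
theorem r1_injective : Function.Injective (r1 P A) := P.X.res1_injective A

variable {A}

/-- A linear isomorphism on the overlap preserving the sections on a chart gives an isomorphism
on the chart. -/
theorem exists_chart_iso {R : CommRingCat.{u}} {j : Spec R ⟶ CA A c} (φ : R ⟶ R01 P A)
    (hφ : Function.Injective φ) (h : Spec.map φ ≫ j = j01 P A) {L L' : (CA A c).Modules}
    (hL : Scheme.Modules.IsInvertible L) (hL' : Scheme.Modules.IsInvertible L')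
    (e : Sec (j01 P A) L ≃ₗ[R01 P A] Sec (j01 P A) L')
    (he : ∀ y, (∃ x', pull (Spec.map φ) h L' x' = e y) ↔ ∃ x, pull (Spec.map φ) h L x = y) :
    ∃ θ : (Scheme.Modules.pullback j).obj L ≅ (Scheme.Modules.pullback j).obj L',
      ∀ x, pull (Spec.map φ) h L' (θ.hom.app ⊤ x) = e (pull (Spec.map φ) h L x) := by
  obtain ⟨a, ha⟩ := exists_chart_hom φ hφ h hL hL' e.toLinearMap fun x =>
    (he _).mpr ⟨x, rfl⟩
  obtain ⟨b, hb⟩ := exists_chart_hom φ hφ h hL' hL e.symm.toLinearMap fun x =>
    (he _).mp ⟨x, (e.apply_symm_apply _).symm⟩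
  have := isQuasicoherent_of_isInvertible (hL.pullback j)
  have := isQuasicoherent_of_isInvertible (hL'.pullback j)
  refine ⟨⟨a, b, sections_hom_ext fun x => pull_spec_injective φ hφ h hL ?_,
    sections_hom_ext fun x => pull_spec_injective φ hφ h hL' ?_⟩, ha⟩
  · exact (hb (a.app ⊤ x)).trans ((congrArg e.symm (ha x)).trans (e.symm_apply_apply _))
  · exact (ha (b.app ⊤ x)).trans ((congrArg e (hb x)).trans (e.apply_symm_apply _))

/-- **Invertible modules with isomorphic bundles are isomorphic.** -/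
theorem nonempty_iso_of_bdlIso {L L' : (CA A c).Modules} (hL : Scheme.Modules.IsInvertible L)
    (hL' : Scheme.Modules.IsInvertible L') :
    Nonempty (Bdl.Iso (toBdl P L hL) (toBdl P L' hL')) → Nonempty (L ≅ L') := fun ⟨i⟩ => by
  let e : Sec (j01 P A) L ≃ₗ[R01 P A] Sec (j01 P A) L' := i.e
  have he0 : ∀ y, (∃ x', res0M P L' x' = e y) ↔ ∃ x, res0M P L x = y := fun y =>
    ((mem_L0_toBdl P hL' (i.e y)).symm.trans (i.map_L0 y)).trans (mem_L0_toBdl P hL y)
  have he1 : ∀ y, (∃ x', res1M P L' x' = e y) ↔ ∃ x, res1M P L x = y := fun y =>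
    ((mem_L1_toBdl P hL' (i.e y)).symm.trans (i.map_L1 y)).trans (mem_L1_toBdl P hL y)
  obtain ⟨θ₀, hθ₀⟩ := exists_chart_iso P (r0 P A) (r0_injective P A) (j := j0 P A) rfl hL hL' e he0
  obtain ⟨θ₁, hθ₁⟩ := exists_chart_iso P (r1 P A) (r1_injective P A) (r1_j1 P A) hL hL' e he1
  let φ₀ := IsoOn.ofPullbackIso (j0 P A) θ₀
  let φ₁ := IsoOn.ofPullbackIso (j1 P A) θ₁
  obtain ⟨a₀, ha₀, ha₀'⟩ := exists_pullHom (Spec.map (r0 P A)) (j' := j01 P A) rfl θ₀.hom
  obtain ⟨a₁, ha₁, ha₁'⟩ := exists_pullHom (Spec.map (r1 P A)) (r1_j1 P A) θ₁.hom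
  have := isQuasicoherent_of_isInvertible (hL.pullback (j01 P A))
  obtain ⟨m, hm⟩ := exists_hom_of_linear e.toLinearMap
  have h0 : a₀ = m := hom_eq_of_pull (r0 P A) (j := j0 P A) rfl hL fun x =>
    (ha₀ x).trans ((hθ₀ x).trans (hm _).symm)
  have h1 : a₁ = m := hom_eq_of_pull (r1 P A) (r1_j1 P A) hL fun x =>
    (ha₁ x).trans ((hθ₁ x).trans (hm _).symm)
  have key : ∀ V (hV0 : V ≤ (j0 P A).opensRange) (hV1 : V ≤ (j1 P A).opensRange) s,
      φ₀.hom.app V hV0 s = φ₁.hom.app V hV1 s := fun V hV0 hV1 s => by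
    refine (η_bijective (j01 P A) L' (le_range_j01 P A hV0 hV1)).1 ?_
    rw [ha₀' V s _ (η_ofPullbackIso (j0 P A) θ₀ V hV0 s),
      ha₁' V s _ (η_ofPullbackIso (j1 P A) θ₁ V hV1 s), h0, h1]
  let U : ULift.{u} Bool → (CA A c).Opens := fun b =>
    bif b.down then (j1 P A).opensRange else (j0 P A).opensRange
  let φ : ∀ b, IsoOn (U b) L L' := fun b => match b with
    | ⟨false⟩ => φ₀
    | ⟨true⟩ => φ₁
  have hc : (⊤ : (CA A c).Opens) ≤ iSup U :=
    (cover_charts P A).trans (sup_le (le_iSup U ⟨false⟩) (le_iSup U ⟨true⟩))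
  obtain ⟨iso, -⟩ := IsoOn.exists_iso_of_glue U hc φ fun b b' V hb hb' s => by
    rcases b with ⟨⟨⟩⟩ <;> rcases b' with ⟨⟨⟩⟩
    · rfl
    · exact key V hb hb' s
    · exact (key V hb' hb s).symm
    · rfl
  exact ⟨iso⟩

end FermatAgent.Pic.Dict
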