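import Fermat.Agent.Pic.Bridge.Affine

/-!
# Morphisms of quasi-coherent modules on affine schemes, and base change of sections

Morphisms of quasi-coherent modules on an affine scheme come from linear maps of sections, and a
dual basis of sections pulls back to a dual basis.
-/

set_option autoImplicit false

noncomputable section

universe u

open CategoryTheory Limits AlgebraicGeometry TopologicalSpace Opposite

namespace FermatAgent.Pic.Dict

variable {R S : CommRingCat.{u}}

/-- Morphisms out of a quasi-coherent module on an affine scheme are determined on global sections.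
-/
theorem sections_hom_ext {N N' : (Spec R).Modules} [N.IsQuasicoherent] {a b : N ⟶ N'}
    (h : ∀ x, a.app ⊤ x = b.app ⊤ x) : a = b := by
  have hΓ : moduleSpecΓFunctor.map a = moduleSpecΓFunctor.map b :=
    ModuleCat.hom_ext (LinearMap.ext h)
  have na := (tilde.adjunction (R := R)).counit.naturality a
  have nb := (tilde.adjunction (R := R)).counit.naturality b
  simp only [Functor.comp_map, Functor.id_map] at na nb
  rw [hΓ, nb] at na
  have : IsIso ((tilde.adjunction (R := R)).counit.app N) :=
    inferInstanceAs (IsIso N.fromTildeΓ)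
  exact ((cancel_epi _).mp na).symm

/-- A linear map of global sections gives a morphism of quasi-coherent modules on an affine scheme.
-/
theorem exists_hom_of_linear {N N' : (Spec R).Modules} [N.IsQuasicoherent]
    (l : Γ(N, ⊤) →ₗ[R] Γ(N', ⊤)) : ∃ a : N ⟶ N', ∀ x, a.app ⊤ x = l x := by
  have : IsIso ((tilde.adjunction (R := R)).counit.app N) :=
    inferInstanceAs (IsIso N.fromTildeΓ)
  let lM : moduleSpecΓFunctor.obj N ⟶ moduleSpecΓFunctor.obj N' :=
    ModuleCat.ofHom (X := Γ(N, ⊤)) (Y := Γ(N', ⊤)) l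
  refine ⟨inv ((tilde.adjunction (R := R)).counit.app N) ≫
    ((tilde.adjunction (R := R)).homEquiv _ _).symm lM, fun x => ?_⟩
  have h1 : moduleSpecΓFunctor.map (inv ((tilde.adjunction (R := R)).counit.app N) ≫
      ((tilde.adjunction (R := R)).homEquiv _ _).symm lM) = lM := by
    have e1 := (tilde.adjunction (R := R)).right_triangle_components N
    have e2 := ((tilde.adjunction (R := R)).homEquiv _ _).apply_symm_apply lM
    rw [(tilde.adjunction (R := R)).homEquiv_unit] at e2
    rw [Functor.map_comp, Functor.map_inv]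
    rw [IsIso.inv_comp_eq]
    rw [← cancel_epi ((tilde.adjunction (R := R)).unit.app (moduleSpecΓFunctor.obj N)), e2,
      reassoc_of% e1]
  exact congr($(h1).hom x)

/-- Restricting a function from the whole scheme to itself changes nothing. -/
theorem top_map_self (A : CommRingCat.{u}) (a : Γ(Spec A, ⊤)) :
    (Spec A).presheaf.map (⊤ : (Spec A).Opens).leTop.op a = a := by
  rw [show (⊤ : (Spec A).Opens).leTop.op = 𝟙 _ from Subsingleton.elim _ _,
    CategoryTheory.Functor.map_id]
  rfl

/-- The sections of the structure sheaf of an affine scheme. -/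
def oneEquiv (A : CommRingCat.{u}) : (A : Type u) ≃ₗ[A] Γ(unitMod (Spec A), ⊤) :=
  LinearEquiv.ofBijective (LinearMap.toSpanSingleton A Γ(unitMod (Spec A), ⊤) (oneSec (Spec A))) (by
    have h : ∀ c : A, c • oneSec (Spec A) = (Scheme.ΓSpecIso A).inv c := fun c => by
      rw [Scheme.Modules.smul_Spec_def, top_map_self]
      exact mul_one (M := Γ(Spec A, ⊤)) _
    have hf : (fun c : A => c • oneSec (Spec A)) = fun c => (Scheme.ΓSpecIso A).inv c := funext h
    show Function.Bijective fun c : A => c • oneSec (Spec A)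
    rw [hf]
    exact ConcreteCategory.bijective_of_isIso _)

/-- A function corresponds to that multiple of the section one. -/
theorem oneEquiv_apply (A : CommRingCat.{u}) (c : A) : oneEquiv A c = c • oneSec (Spec A) := rfl

/-- A linear form on global sections gives a morphism to the structure sheaf. -/
theorem exists_hom_unit {N : (Spec R).Modules} [N.IsQuasicoherent] (l : Γ(N, ⊤) →ₗ[R] R) :
    ∃ a : N ⟶ unitMod (Spec R), ∀ x, a.app ⊤ x = l x • oneSec (Spec R) := by
  obtain ⟨a, ha⟩ := exists_hom_of_linear (N' := unitMod (Spec R))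
    ((LinearMap.toSpanSingleton R Γ(unitMod (Spec R), ⊤) (oneSec (Spec R))).comp l)
  exact ⟨a, ha⟩

/-- A global section gives a morphism from the structure sheaf. -/
theorem exists_unit_hom {N : (Spec R).Modules} (m : Γ(N, ⊤)) :
    ∃ b : unitMod (Spec R) ⟶ N, b.app ⊤ (oneSec (Spec R)) = m := by
  have := isQuasicoherent_of_isInvertible (Scheme.Modules.isInvertible_unit (Spec R))
  let e := oneEquiv R
  obtain ⟨b, hb⟩ := exists_hom_of_linear (N' := N)
    (((LinearMap.toSpanSingleton R Γ(N, ⊤) m).comp e.symm.toLinearMap))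
  refine ⟨b, (hb _).trans ?_⟩
  have h1 : e.symm (oneSec (Spec R)) = 1 := by
    rw [LinearEquiv.symm_apply_eq]
    exact (one_smul R (oneSec (Spec R))).symm
  show e.symm (oneSec (Spec R)) • m = m
  rw [h1, one_smul]

theorem sum_app_apply {X : Scheme.{u}} {M N : X.Modules} {ι : Type*} (t : Finset ι)
    (a : ι → (M ⟶ N)) (U : X.Opens) (x : Γ(M, U)) :
    (∑ i ∈ t, a i).app U x = ∑ i ∈ t, (a i).app U x :=
  map_sum (AddMonoidHom.mk' (fun φ : M ⟶ N => φ.app U x) fun _ _ => rfl) a t

/-- Sections along a map of affine schemes are semilinear. -/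
theorem appTop_smul_spec (φ : R ⟶ S) (r : R) {M : (Spec S).Modules} (x : Γ(M, ⊤)) :
    (Spec.map φ).appTop ((Spec R).presheaf.map (⊤ : (Spec R).Opens).leTop.op
      ((Scheme.ΓSpecIso R).inv r)) • x = φ r • x := by
  rw [Scheme.Modules.smul_Spec_def]
  congr 1
  rw [top_map_self, top_map_self]
  exact (congr($(Scheme.ΓSpecIso_inv_naturality φ) r)).symm

theorem η_smul_spec (φ : R ⟶ S) (N : (Spec R).Modules) (r : R) (x : Γ(N, ⊤)) :
    (η (Spec.map φ) N ⊤ (r • x) : Γ((Scheme.Modules.pullback (Spec.map φ)).obj N, ⊤)) =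
      φ r • (η (Spec.map φ) N ⊤ x : Γ((Scheme.Modules.pullback (Spec.map φ)).obj N, ⊤)) := by
  rw [Scheme.Modules.smul_Spec_def, η_smul]
  exact appTop_smul_spec φ r (M := (Scheme.Modules.pullback (Spec.map φ)).obj N) _

/-- **Base change of sections**: if global sections and functionals form a dual basis of an
invertible module on `Spec R`, their images form a dual basis of the inverse image on `Spec S`. -/
theorem exists_baseChange_dualBasis (φ : R ⟶ S) {N : (Spec R).Modules}
    (hN : Scheme.Modules.IsInvertible N) {n : ℕ} (p : Fin n → Γ(N, ⊤))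
    (f : Fin n → Γ(N, ⊤) →ₗ[R] R) (hpf : ∀ m, ∑ i, f i m • p i = m) :
    ∃ f' : Fin n → Γ((Scheme.Modules.pullback (Spec.map φ)).obj N, ⊤) →ₗ[S] S,
      (∀ i x, f' i (sec (Spec.map φ) N x) = φ (f i x)) ∧
        ∀ y : Γ((Scheme.Modules.pullback (Spec.map φ)).obj N, ⊤),
          ∑ i, f' i y • sec (Spec.map φ) N (p i) = y := by
  have := isQuasicoherent_of_isInvertible hN
  choose a ha using fun i => exists_hom_unit (f i)
  choose b hb using fun i => exists_unit_hom (p i)
  have hid : ∑ i, a i ≫ b i = 𝟙 N := sections_hom_ext fun x => by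
    rw [sum_app_apply, Scheme.Modules.Hom.id_app]
    refine (Finset.sum_congr rfl fun i _ => ?_).trans (hpf x)
    show (b i).app ⊤ ((a i).app ⊤ x) = _
    rw [ha, ← hb i]
    exact Scheme.Modules.Hom.app_smul (b i) _ _
  let PB := Scheme.Modules.pullback (Spec.map φ)
  let J := unitIso (Spec.map φ)
  let eS := oneEquiv S
  have heS : ∀ c : S, eS c = c • oneSec (Spec S) := fun c => rfl
  let f' : Fin n → Γ(PB.obj N, ⊤) →ₗ[S] S := fun i =>
    eS.symm.toLinearMap ∘ₗ (moduleSpecΓFunctor.map (PB.map (a i) ≫ J.hom)).hom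
  have hf' : ∀ i y, f' i y • oneSec (Spec S) = J.hom.app ⊤ ((PB.map (a i)).app ⊤ y) := fun i y => by
    rw [← heS]
    exact eS.apply_symm_apply _
  have hJη : J.hom.app ⊤ (η (Spec.map φ) (unitMod (Spec R)) ⊤ (oneSec (Spec R))) =
      oneSec (Spec S) :=
    unitIso_sec_one (Spec.map φ)
  have hηp : ∀ i, (PB.map (b i)).app ⊤ (J.inv.app ⊤ (oneSec (Spec S))) =
      η (Spec.map φ) N ⊤ (p i) := fun i => by
    rw [← hJη]
    have hcancel : J.inv.app ⊤
        (J.hom.app ⊤ (η (Spec.map φ) (unitMod (Spec R)) ⊤ (oneSec (Spec R)))) =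
        η (Spec.map φ) (unitMod (Spec R)) ⊤ (oneSec (Spec R)) :=
      congr($(J.hom_inv_id).app ⊤ _)
    rw [hcancel, ← hb i]
    exact η_natural (Spec.map φ) (b i) ⊤ _
  refine ⟨f', fun i x => eS.injective ?_, fun y => ?_⟩
  all_goals dsimp only [sec]
  · rw [heS, heS]
    refine (hf' i _).trans ?_
    refine (congrArg (J.hom.app ⊤) (η_natural (Spec.map φ) (a i) ⊤ x)).trans ?_
    rw [ha, η_smul_spec]
    exact ((Scheme.Modules.Hom.app_smul J.hom _ _).trans (by rw [hJη]; rfl))
  · have hy : y = ∑ i, (PB.map (b i)).app ⊤ ((PB.map (a i)).app ⊤ y) := by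
      have h0 := congr(($(congrArg PB.map hid)).app ⊤ y)
      rw [PB.map_sum, PB.map_id] at h0
      rw [sum_app_apply] at h0
      refine h0.symm.trans (Finset.sum_congr rfl fun i _ => ?_)
      rw [Functor.map_comp]
      rfl
    conv_rhs => rw [hy]
    refine Finset.sum_congr rfl fun i _ => ?_
    have h1 : (PB.map (a i)).app ⊤ y = f' i y • J.inv.app ⊤ (oneSec (Spec S)) := by
      have h2 : J.inv.app ⊤ (J.hom.app ⊤ ((PB.map (a i)).app ⊤ y)) = (PB.map (a i)).app ⊤ y :=
        congr($(J.hom_inv_id).app ⊤ _)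
      rw [← h2, ← hf']
      exact Scheme.Modules.Hom.app_smul J.inv _ _
    rw [h1, ← hηp i]
    exact (Scheme.Modules.Hom.app_smul (PB.map (b i)) _ _).symm

end FermatAgent.Pic.Dict
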