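import Fermat.Agent.Pic.Basic

/-!
# Recognising the base change of a bundle

A bundle over `B` receiving a semilinear map from one over `A`, which carries a dual basis and
generators of the lattices to such, is the base change.
-/

set_option autoImplicit false

noncomputable section

universe u

open scoped TensorProduct

namespace FermatAgent.Pic.Dict

variable {k : Type u} [Field k] {C : Curve2 k} {A B : Type u} [CommRing A] [Algebra k A]
  [CommRing B] [Algebra k B]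

/-- **A semilinear map carrying a dual basis to a dual basis gives the base change.** -/
theorem exists_iso_map (f : A →ₐ[k] B) (E : Bdl C A) (E' : Bdl C B) (v : E.M →+ E'.M)
    (hv : ∀ (s : C.S01 A) (x : E.M), v (s • x) = C.map01 f s • v x)
    (hdual : ∃ ψ : Fin E.l0.n → E'.M →ₗ[C.S01 B] C.S01 B,
      (∀ i x, ψ i (v x) = C.map01 f (E.l0.φ i x)) ∧ ∀ y, ∑ i, ψ i y • v (E.l0.p i) = y)
    (hmem0 : ∀ x ∈ E.L0, v x ∈ E'.L0)
    (hspan0 : ∀ y ∈ E'.L0, ∃ (n : ℕ) (a : Fin n → C.S0 B) (x : Fin n → E.M),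
      (∀ i, x i ∈ E.L0) ∧ y = ∑ i, C.res0 B (a i) • v (x i))
    (hmem1 : ∀ x ∈ E.L1, v x ∈ E'.L1)
    (hspan1 : ∀ y ∈ E'.L1, ∃ (n : ℕ) (a : Fin n → C.S1 B) (x : Fin n → E.M),
      (∀ i, x i ∈ E.L1) ∧ y = ∑ i, C.res1 B (a i) • v (x i)) :
    Nonempty (Bdl.Iso E' (E.map f)) := by
  let : Algebra (C.S01 A) (C.S01 B) := (C.map01 f).toRingHom.toAlgebra
  let : Module (C.S01 A) E'.M := Module.compHom E'.M (C.map01 f).toRingHom
  have : IsScalarTower (C.S01 A) (C.S01 B) E'.M :=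
    IsScalarTower.of_algebraMap_smul fun _ _ => rfl
  obtain ⟨ψ, hψ, hsum⟩ := hdual
  let vl : E.M →ₗ[C.S01 A] E'.M := { v with map_smul' := hv }
  let Θ : (E.map f).M →ₗ[C.S01 B] E'.M :=
    TensorProduct.AlgebraTensorModule.lift
      (LinearMap.toSpanSingleton (C.S01 B) (E.M →ₗ[C.S01 A] E'.M) vl)
  have hΘ : ∀ (s : C.S01 B) (x : E.M), Θ ((s ⊗ₜ[C.S01 A] x :) : (E.map f).M) = s • v x :=
    fun _ _ => rfl
  let Ψ : E'.M →ₗ[C.S01 B] (E.map f).M :=
    ∑ i, (ψ i).smulRight (((1 : C.S01 B) ⊗ₜ[C.S01 A] E.l0.p i :) : (E.map f).M)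
  let q : Fin E.l0.n → (E.map f).M := fun i =>
    (((1 : C.S01 B) ⊗ₜ[C.S01 A] E.l0.p i :) : (E.map f).M)
  have hΨ : ∀ y, Ψ y = ∑ i, ψ i y • q i := fun y =>
    (LinearMap.sum_apply Finset.univ _ y).trans (Finset.sum_congr rfl fun i _ => rfl)
  have h1 : ∀ y, Θ (Ψ y) = y := fun y => by
    rw [hΨ, map_sum]
    refine Eq.trans (Finset.sum_congr rfl fun i _ => ?_) (hsum y)
    exact (map_smul Θ _ _).trans (congrArg (ψ i y • ·) ((hΘ 1 _).trans (one_smul _ _)))
  have h2 : ∀ z, Ψ (Θ z) = z := fun z => by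
    induction z using TensorProduct.induction_on with
    | zero => exact (congrArg Ψ (map_zero Θ)).trans (map_zero Ψ)
    | tmul s x =>
      rw [hΘ, map_smul, hΨ]
      have hx : ∑ i, ψ i (v x) • q i = (((1 : C.S01 B) ⊗ₜ[C.S01 A] x :) : (E.map f).M) := by
        refine Eq.trans ?_ (congrArg (fun m : E.M => ((1 : C.S01 B) ⊗ₜ[C.S01 A] m)) (E.l0.sum_eq x))
        refine Eq.trans ?_ (TensorProduct.tmul_sum (1 : C.S01 B) _ _).symm
        refine Finset.sum_congr rfl fun i _ => ?_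
        show ψ i (v x) • q i = _
        rw [hψ]
        exact ((algebraMap_smul (C.S01 B) (E.l0.φ i x)
          ((1 : C.S01 B) ⊗ₜ[C.S01 A] E.l0.p i : C.S01 B ⊗[C.S01 A] E.M))).trans
            (TensorProduct.tmul_smul _ _ _).symm
      exact (congrArg (s • ·) hx).trans
        ((TensorProduct.smul_tmul' s 1 x).trans (by rw [smul_eq_mul, mul_one]))
    | add a b ha hb => exact (congrArg Ψ (map_add Θ a b)).trans ((map_add Ψ _ _).trans
        (congrArg₂ (· + ·) ha hb))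
  let e : (E.map f).M ≃ₗ[C.S01 B] E'.M :=
    { Θ with invFun := Ψ, left_inv := h2, right_inv := h1 }
  have h10 : ∀ x ∈ E.L0, ((((1 : C.S01 B) ⊗ₜ[C.S01 A] x :) : (E.map f).M)) ∈ (E.map f).L0 :=
    fun x hx => Bdl.mem_L0.mpr fun i => by
      obtain ⟨a, ha⟩ := Bdl.mem_L0.mp hx i
      refine ⟨C.map0 f a, ?_⟩
      show _ = E.l0.φ i x • (1 : C.S01 B)
      rw [Algebra.smul_def, mul_one, ← ha]
      exact (C.map01_res0 f a).symm
  have h11 : ∀ x ∈ E.L1, ((((1 : C.S01 B) ⊗ₜ[C.S01 A] x :) : (E.map f).M)) ∈ (E.map f).L1 :=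
    fun x hx => Bdl.mem_L1.mpr fun i => by
      obtain ⟨a, ha⟩ := Bdl.mem_L1.mp hx i
      refine ⟨C.map1 f a, ?_⟩
      show _ = E.l1.φ i x • (1 : C.S01 B)
      rw [Algebra.smul_def, mul_one, ← ha]
      exact (C.map01_res1 f a).symm
  let i : Bdl.Iso (E.map f) E' := ⟨e, fun z => ?_, fun z => ?_⟩
  · exact Bdl.isoSetoid.iseqv.symm ⟨i⟩
  · constructor
    · intro hz
      obtain ⟨n, a, x, hx, hsum'⟩ := hspan0 _ hz
      let w : Fin n → (E.map f).M := fun i => (((1 : C.S01 B) ⊗ₜ[C.S01 A] x i :) : (E.map f).M)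
      have : z = ∑ i, C.res0 B (a i) • w i := by
        refine e.injective (hsum'.trans ?_)
        show _ = Θ _
        rw [map_sum]
        exact Finset.sum_congr rfl fun i _ => ((map_smul Θ _ _).trans
          (congrArg (C.res0 B (a i) • ·) ((hΘ 1 _).trans (one_smul _ _)))).symm
      rw [this]
      exact sum_mem fun i _ => Bdl.res0_smul_mem _ _ (h10 _ (hx i))
    · intro hz
      obtain ⟨a, rfl⟩ := (Bdl.mem_L0_iff_exists _).mp hz
      show Θ _ ∈ _
      rw [map_sum]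
      refine sum_mem fun i _ => ?_
      rw [map_smul]
      refine Bdl.res0_smul_mem _ _ ?_
      exact (hΘ 1 _).symm ▸ (one_smul (C.S01 B) (v (E.l0.p i))).symm ▸ hmem0 _ (E.p_mem_L0 i)
  · constructor
    · intro hz
      obtain ⟨n, a, x, hx, hsum'⟩ := hspan1 _ hz
      let w : Fin n → (E.map f).M := fun i => (((1 : C.S01 B) ⊗ₜ[C.S01 A] x i :) : (E.map f).M)
      have : z = ∑ i, C.res1 B (a i) • w i := by
        refine e.injective (hsum'.trans ?_)
        show _ = Θ _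
        rw [map_sum]
        exact Finset.sum_congr rfl fun i _ => ((map_smul Θ _ _).trans
          (congrArg (C.res1 B (a i) • ·) ((hΘ 1 _).trans (one_smul _ _)))).symm
      rw [this]
      exact sum_mem fun i _ => Bdl.res1_smul_mem _ _ (h11 _ (hx i))
    · intro hz
      obtain ⟨a, rfl⟩ := (Bdl.mem_L1_iff_exists _).mp hz
      show Θ _ ∈ _
      rw [map_sum]
      refine sum_mem fun i _ => ?_
      rw [map_smul]
      refine Bdl.res1_smul_mem _ _ ?_
      exact (hΘ 1 _).symm ▸ (one_smul (C.S01 B) (v (E.l1.p i))).symm ▸ hmem1 _ (E.p_mem_L1 i)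

end FermatAgent.Pic.Dict
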