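import Fermat.Agent.Pic.Bridge.Functorial
import Fermat.Agent.Pic.Bridge.MapIso

/-!
# The bundle of an inverse image along a change of parameters

The bundle of the inverse image of an invertible module along a change of parameters is the base
change of its bundle.
-/

set_option autoImplicit false

noncomputable section

universe u

open CategoryTheory CategoryTheory.Limits AlgebraicGeometry NeronModelInfra
  AlgebraicGeometry.RelPicard
open scoped TensorProduct

namespace FermatAgent.Pic.Dict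

theorem exists_pull_bc_span {R S R' S' : CommRingCat.{u}} {X X' : Scheme.{u}} (g : X' ⟶ X)
    (φ : R ⟶ S) (φ' : R' ⟶ S') (a : R ⟶ R') (b : S ⟶ S') (hsq : φ ≫ b = a ≫ φ')
    {j : Spec R ⟶ X} {j' : Spec S ⟶ X'} (h : Spec.map φ ≫ j = j' ≫ g) {j₂ : Spec R' ⟶ X}
    {j₂' : Spec S' ⟶ X'} (h₂ : Spec.map φ' ≫ j₂ = j₂' ≫ g) (ha : Spec.map a ≫ j = j₂)
    (hb : Spec.map b ≫ j' = j₂') {L : X.Modules} (hL : Scheme.Modules.IsInvertible L)
    (w : Sec j' ((Scheme.Modules.pullback g).obj L)) :
    ∃ (n : ℕ) (c : Fin n → S) (x : Fin n → Sec j₂ L), (∀ i, ∃ u, pull (Spec.map a) ha L u = x i) ∧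
      pull (Spec.map b) hb _ w = ∑ i, b (c i) • bcMap g φ' h₂ L (x i) := by
  obtain ⟨n, p, f, hs, -, -⟩ := exists_sec_dualBasis j hL
  obtain ⟨f', -, hs'⟩ := exists_bcMap_dualBasis g φ h hL p f hs
  refine ⟨n, fun i => f' i w, fun i => pull (Spec.map a) ha L (p i), fun i => ⟨p i, rfl⟩, ?_⟩
  conv_lhs => rw [← hs' w]
  rw [map_sum]
  exact Finset.sum_congr rfl fun i _ => by
    rw [pull_smul_spec, bcMap_pull g φ φ' a b hsq h h₂ ha hb]

variable {k : Type u} [Field k] {C : Scheme.{u}} {c : C ⟶ Spec (CommRingCat.of k)}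
  {ε : SchemeHomOver (𝟙 (Spec (CommRingCat.of k))) c} (P : Pres c ε)
  {A : Type u} [CommRing A] [Algebra k A] {B : Type u} [CommRing B] [Algebra k B] (f : A →ₐ[k] B)

/-- The change of parameters of the curve. -/
def bcA : CA B c ⟶ CA A c := baseChangeSnd c (overAlg f)

/-- Change of parameters on the first chart. -/
def m0 : R0 P A ⟶ R0 P B := CommRingCat.ofHom (P.X.map0 f).toRingHom

/-- Change of parameters on the second chart. -/
def m1 : R1 P A ⟶ R1 P B := CommRingCat.ofHom (P.X.map1 f).toRingHom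

/-- Change of parameters on the overlap. -/
def m01 : R01 P A ⟶ R01 P B := CommRingCat.ofHom (P.X.map01 f).toRingHom

theorem m0_r0 : m0 P f ≫ r0 P B = r0 P A ≫ m01 P f :=
  CommRingCat.hom_ext (RingHom.ext fun s => (P.X.map01_res0 f s).symm)

theorem m1_r1 : m1 P f ≫ r1 P B = r1 P A ≫ m01 P f :=
  CommRingCat.hom_ext (RingHom.ext fun s => (P.X.map01_res1 f s).symm)

theorem j0_baseChange :
    Spec.map (m0 P f) ≫ j0 P A = j0 P B ≫ bcA (c := c) f :=
  (chart_baseChange P.i0 P.over0 f).symm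

theorem j1_baseChange :
    Spec.map (m1 P f) ≫ j1 P A = j1 P B ≫ bcA (c := c) f :=
  (chart_baseChange P.i1 P.over1 f).symm

theorem j01_baseChange :
    Spec.map (m01 P f) ≫ j01 P A = j01 P B ≫ bcA (c := c) f := by
  rw [j01, j01, Category.assoc, ← j0_baseChange, ← Category.assoc, ← Category.assoc,
    ← Spec.map_comp, ← Spec.map_comp, m0_r0]

/-- The comparison map on the overlap. -/
def midBc (L : (CA A c).Modules) :
    Mid P L →+ Mid P ((Scheme.Modules.pullback (bcA (c := c) f)).obj L) :=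
  bcMap (bcA (c := c) f) (m01 P f) (j01_baseChange P f) L

theorem midBc_apply (L : (CA A c).Modules) (x : Sec (j01 P A) L) :
    midBc P f L x = bcMap (bcA (c := c) f) (m01 P f) (j01_baseChange P f) L x :=
  DFunLike.congr_fun (show midBc P f L =
    bcMap (bcA (c := c) f) (m01 P f) (j01_baseChange P f) L from rfl) x

theorem res0M_apply (L : (CA A c).Modules) (u : Sec (j0 P A) L) :
    res0M P L u = pull (Spec.map (r0 P A)) rfl L u :=
  DFunLike.congr_fun (show res0M P L = pull (Spec.map (r0 P A)) rfl L from rfl) u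

theorem res1M_apply (L : (CA A c).Modules) (u : Sec (j1 P A) L) :
    res1M P L u = pull (Spec.map (r1 P A)) (r1_j1 P A) L u :=
  DFunLike.congr_fun (show res1M P L = pull (Spec.map (r1 P A)) (r1_j1 P A) L from rfl) u

theorem smul_mid (L : (CA A c).Modules) (s : P.X.S01 A) (x : Mid P L) :
    s • x = ((s : R01 P A) • (x : Sec (j01 P A) L) : Sec (j01 P A) L) := rfl

theorem m01_apply (s : P.X.S01 A) : m01 P f (s : R01 P A) = P.X.map01 f s := rfl

theorem r0_apply (a : P.X.S0 A) : r0 P A (a : R0 P A) = P.X.res0 A a := rfl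

theorem r1_apply (a : P.X.S1 A) : r1 P A (a : R1 P A) = P.X.res1 A a := rfl

theorem midBc_smul (L : (CA A c).Modules) (s : P.X.S01 A) (x : Mid P L) :
    midBc P f L (s • x) = P.X.map01 f s • midBc P f L x := by
  refine (congrArg (fun v => midBc P f L v) (smul_mid P L s x)).trans ?_
  refine (midBc_apply P f L _).trans ?_
  refine (bcMap_smul (bcA (c := c) f) (m01 P f) (j01_baseChange P f) L _ _).trans ?_
  refine Eq.trans ?_ (smul_mid P ((Scheme.Modules.pullback (bcA (c := c) f)).obj L) _ _).symm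
  exact congrArg₂
    (fun (a : R01 P B) (v : Sec (j01 P B) ((Scheme.Modules.pullback (bcA (c := c) f)).obj L)) =>
      a • v) (m01_apply P f s)
    (midBc_apply P f L x).symm

theorem exists_midBc_dualBasis {L : (CA A c).Modules} (hL : Scheme.Modules.IsInvertible L) {n : ℕ}
    (p : Fin n → Mid P L) (φ : Fin n → Mid P L →ₗ[P.X.S01 A] P.X.S01 A)
    (hs : ∀ m, ∑ i, φ i m • p i = m) :
    ∃ ψ : Fin n → Mid P ((Scheme.Modules.pullback (bcA (c := c) f)).obj L) →ₗ[P.X.S01 B] P.X.S01 B,
      (∀ i x, ψ i (midBc P f L x) = P.X.map01 f (φ i x)) ∧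
        ∀ y, ∑ i, ψ i y • midBc P f L (p i) = y := by
  obtain ⟨ψ, h1, h2⟩ := exists_bcMap_dualBasis (bcA (c := c) f) (m01 P f) (j01_baseChange P f) hL
    p φ hs
  refine ⟨ψ, fun i x => ?_, fun y => ?_⟩
  · exact (congrArg (ψ i) (midBc_apply P f L x)).trans ((h1 i x).trans (m01_apply P f _))
  · refine Eq.trans (Finset.sum_congr rfl fun i _ => ?_) (h2 y)
    refine (smul_mid P ((Scheme.Modules.pullback (bcA (c := c) f)).obj L) _ _).trans ?_
    exact congrArg (fun v : Sec (j01 P B) ((Scheme.Modules.pullback (bcA (c := c) f)).obj L) =>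
      (ψ i y : R01 P B) • v) (midBc_apply P f L (p i))

theorem midBc_res0 (L : (CA A c).Modules) (u : Sec (j0 P A) L) :
    midBc P f L (res0M P L u) = res0M P ((Scheme.Modules.pullback (bcA (c := c) f)).obj L)
      (bcMap (bcA (c := c) f) (m0 P f) (j0_baseChange P f) L u) := by
  refine (congrArg (fun v => midBc P f L v) (res0M_apply P L u)).trans ?_
  refine (midBc_apply P f L _).trans ?_
  refine Eq.trans ?_ (res0M_apply P ((Scheme.Modules.pullback (bcA (c := c) f)).obj L) _).symm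
  exact bcMap_pull (bcA (c := c) f) (m0 P f) (m01 P f) (r0 P A) (r0 P B) (m0_r0 P f)
    (j0_baseChange P f) (j01_baseChange P f) rfl rfl L u

theorem midBc_res1 (L : (CA A c).Modules) (u : Sec (j1 P A) L) :
    midBc P f L (res1M P L u) = res1M P ((Scheme.Modules.pullback (bcA (c := c) f)).obj L)
      (bcMap (bcA (c := c) f) (m1 P f) (j1_baseChange P f) L u) := by
  refine (congrArg (fun v => midBc P f L v) (res1M_apply P L u)).trans ?_
  refine (midBc_apply P f L _).trans ?_
  refine Eq.trans ?_ (res1M_apply P ((Scheme.Modules.pullback (bcA (c := c) f)).obj L) _).symm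
  exact bcMap_pull (bcA (c := c) f) (m1 P f) (m01 P f) (r1 P A) (r1 P B) (m1_r1 P f)
    (j1_baseChange P f) (j01_baseChange P f) (r1_j1 P A) (r1_j1 P B) L u

theorem exists_span_res0 {L : (CA A c).Modules} (hL : Scheme.Modules.IsInvertible L)
    (w : Sec (j0 P B) ((Scheme.Modules.pullback (bcA (c := c) f)).obj L)) :
    ∃ (n : ℕ) (a : Fin n → P.X.S0 B) (x : Fin n → Mid P L),
      (∀ i, ∃ u, res0M P L u = x i) ∧
        res0M P ((Scheme.Modules.pullback (bcA (c := c) f)).obj L) w =
          ∑ i, P.X.res0 B (a i) • midBc P f L (x i) := by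
  obtain ⟨n, a, x, hx, e⟩ := exists_pull_bc_span (bcA (c := c) f) (m0 P f) (m01 P f) (r0 P A)
    (r0 P B) (m0_r0 P f) (j0_baseChange P f) (j01_baseChange P f) rfl rfl hL w
  refine ⟨n, a, x, fun i => ?_, ?_⟩
  · obtain ⟨u, hu⟩ := hx i
    exact ⟨u, (res0M_apply P L u).trans hu⟩
  · refine (res0M_apply P ((Scheme.Modules.pullback (bcA (c := c) f)).obj L) w).trans
      (e.trans (Finset.sum_congr rfl fun i _ => ?_))
    refine Eq.trans ?_ (smul_mid P ((Scheme.Modules.pullback (bcA (c := c) f)).obj L) _ _).symm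
    exact congrArg₂
      (fun (r : R01 P B) (v : Sec (j01 P B) ((Scheme.Modules.pullback (bcA (c := c) f)).obj L)) =>
        r • v) (r0_apply P (a i))
      (midBc_apply P f L (x i)).symm

theorem exists_span_res1 {L : (CA A c).Modules} (hL : Scheme.Modules.IsInvertible L)
    (w : Sec (j1 P B) ((Scheme.Modules.pullback (bcA (c := c) f)).obj L)) :
    ∃ (n : ℕ) (a : Fin n → P.X.S1 B) (x : Fin n → Mid P L),
      (∀ i, ∃ u, res1M P L u = x i) ∧
        res1M P ((Scheme.Modules.pullback (bcA (c := c) f)).obj L) w =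
          ∑ i, P.X.res1 B (a i) • midBc P f L (x i) := by
  obtain ⟨n, a, x, hx, e⟩ := exists_pull_bc_span (bcA (c := c) f) (m1 P f) (m01 P f) (r1 P A)
    (r1 P B) (m1_r1 P f) (j1_baseChange P f) (j01_baseChange P f) (r1_j1 P A) (r1_j1 P B) hL w
  refine ⟨n, a, x, fun i => ?_, ?_⟩
  · obtain ⟨u, hu⟩ := hx i
    exact ⟨u, (res1M_apply P L u).trans hu⟩
  · refine (res1M_apply P ((Scheme.Modules.pullback (bcA (c := c) f)).obj L) w).trans
      (e.trans (Finset.sum_congr rfl fun i _ => ?_))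
    refine Eq.trans ?_ (smul_mid P ((Scheme.Modules.pullback (bcA (c := c) f)).obj L) _ _).symm
    exact congrArg₂
      (fun (r : R01 P B) (v : Sec (j01 P B) ((Scheme.Modules.pullback (bcA (c := c) f)).obj L)) =>
        r • v) (r1_apply P (a i))
      (midBc_apply P f L (x i)).symm

/-- The bundle of an inverse image is the base change of the bundle. -/
theorem toBdl_pullback {L : (CA A c).Modules} (hL : Scheme.Modules.IsInvertible L)
    (hL' : Scheme.Modules.IsInvertible ((Scheme.Modules.pullback (bcA (c := c) f)).obj L)) :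
    Nonempty (Bdl.Iso (toBdl P ((Scheme.Modules.pullback (bcA (c := c) f)).obj L) hL')
      ((toBdl P L hL).map f)) := by
  refine exists_iso_map f (toBdl P L hL) (toBdl P ((Scheme.Modules.pullback (bcA (c := c) f)).obj L)
    hL') (midBc P f L) (midBc_smul P f L)
    (exists_midBc_dualBasis P f hL _ _ (toBdl P L hL).l0.sum_eq) ?_ ?_ ?_ ?_
  · intro x hx
    obtain ⟨u, rfl⟩ := (mem_L0_toBdl P hL x).mp hx
    exact (mem_L0_toBdl P hL' _).mpr ⟨_, (midBc_res0 P f L u).symm⟩
  · intro y hy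
    obtain ⟨w, rfl⟩ := (mem_L0_toBdl P hL' y).mp hy
    obtain ⟨n, a, x, hx, e⟩ := exists_span_res0 P f hL w
    exact ⟨n, a, x, fun i => (mem_L0_toBdl P hL _).mpr (hx i), e⟩
  · intro x hx
    obtain ⟨u, rfl⟩ := (mem_L1_toBdl P hL x).mp hx
    exact (mem_L1_toBdl P hL' _).mpr ⟨_, (midBc_res1 P f L u).symm⟩
  · intro y hy
    obtain ⟨w, rfl⟩ := (mem_L1_toBdl P hL' y).mp hy
    obtain ⟨n, a, x, hx, e⟩ := exists_span_res1 P f hL w
    exact ⟨n, a, x, fun i => (mem_L1_toBdl P hL _).mpr (hx i), e⟩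

end FermatAgent.Pic.Dict
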