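import Fermat.Agent.Pic.Bridge.Functorial

/-!
# Rigidity of the bundle is triviality along the marked section

A semilinear surjective form on the sections of the second chart is the same as a trivialisation
of the inverse image along the marked section.
-/

set_option autoImplicit false

noncomputable section

universe u

open CategoryTheory CategoryTheory.Limits AlgebraicGeometry NeronModelInfra
  AlgebraicGeometry.RelPicard
open scoped TensorProduct

namespace FermatAgent.Pic.Dict

section General

variable {R S : CommRingCat.{u}} {X : Scheme.{u}}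

/-- A linear isomorphism of global sections of invertible modules on an affine scheme gives an
isomorphism of modules. -/
theorem nonempty_iso_of_secEquiv {N N' : (Spec R).Modules} (hN : Scheme.Modules.IsInvertible N)
    (hN' : Scheme.Modules.IsInvertible N') (q : Γ(N, ⊤) ≃ₗ[R] Γ(N', ⊤)) :
    Nonempty (N ≅ N') := by
  have := isQuasicoherent_of_isInvertible hN
  have := isQuasicoherent_of_isInvertible hN'
  obtain ⟨a, ha⟩ := exists_hom_of_linear q.toLinearMap
  obtain ⟨b, hb⟩ := exists_hom_of_linear q.symm.toLinearMap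
  refine ⟨⟨a, b, sections_hom_ext fun x => ?_, sections_hom_ext fun x => ?_⟩⟩
  · show b.app ⊤ (a.app ⊤ x) = x
    rw [hb, ha]
    exact q.symm_apply_apply x
  · show a.app ⊤ (b.app ⊤ x) = x
    rw [ha, hb]
    exact q.apply_symm_apply x

/-- A trivialisation along a closed affine subscheme gives a semilinear surjective form. -/
theorem exists_form_of_trivial (π : R ⟶ S) (hπ : Function.Surjective π) {j : Spec R ⟶ X}
    {j' : Spec S ⟶ X} (h : Spec.map π ≫ j = j') {L : X.Modules}
    (hL : Scheme.Modules.IsInvertible L)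
    (e : (Scheme.Modules.pullback j').obj L ≅ unitMod (Spec S)) :
    ∃ l : Sec j L →+ (S : Type u), Function.Surjective l ∧ ∀ r x, l (r • x) = π r * l x := by
  let q : Sec j' L ≃ₗ[S] (S : Type u) :=
    (moduleSpecΓFunctor.mapIso e).toLinearEquiv.trans (oneEquiv S).symm
  refine ⟨q.toLinearMap.toAddMonoidHom.comp (pull (Spec.map π) h L), fun s => ?_, fun r x => ?_⟩
  · obtain ⟨n, p, f, hs, -, -⟩ := exists_sec_dualBasis j hL
    obtain ⟨f', -, hy⟩ := exists_pull_dualBasis π h hL p f hs
    choose r hr using fun i => hπ (f' i (q.symm s))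
    refine ⟨∑ i, r i • p i, ?_⟩
    show q (pull (Spec.map π) h L (∑ i, r i • p i)) = s
    refine Eq.trans (congrArg q ?_) (q.apply_symm_apply s)
    rw [map_sum]
    refine Eq.trans ?_ (hy (q.symm s))
    exact Finset.sum_congr rfl fun i _ => by rw [pull_smul_spec, hr]
  · show q (pull (Spec.map π) h L (r • x)) = π r * q (pull (Spec.map π) h L x)
    rw [pull_smul_spec, map_smul, smul_eq_mul]

/-- A semilinear surjective form gives a trivialisation along the affine subscheme. -/
theorem nonempty_trivial_of_form (π : R ⟶ S) {j : Spec R ⟶ X} {j' : Spec S ⟶ X}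
    (h : Spec.map π ≫ j = j') {L : X.Modules} (hL : Scheme.Modules.IsInvertible L)
    (l : Sec j L →+ (S : Type u)) (hl : Function.Surjective l)
    (hlin : ∀ r x, l (r • x) = π r * l x) :
    Nonempty ((Scheme.Modules.pullback j').obj L ≅ unitMod (Spec S)) := by
  obtain ⟨n, p, f, hs, -, -⟩ := exists_sec_dualBasis j hL
  obtain ⟨f', hf', -⟩ := exists_pull_dualBasis π h hL p f hs
  obtain ⟨-, -, -, -, -, hc⟩ := exists_sec_dualBasis j' hL
  let q : Sec j' L →ₗ[S] (S : Type u) := ∑ i, l (p i) • f' i
  have hq : ∀ x, q (pull (Spec.map π) h L x) = l x := fun x => by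
    simp only [q, LinearMap.sum_apply, LinearMap.smul_apply, smul_eq_mul, hf']
    conv_rhs => rw [← hs x, map_sum]
    exact Finset.sum_congr rfl fun i _ => by rw [hlin, mul_comm]
  have hb : Function.Bijective q := by
    obtain ⟨x₁, hx₁⟩ := hl 1
    have hz : q (pull (Spec.map π) h L x₁) = 1 := (hq x₁).trans hx₁
    refine ⟨fun y y' e => sub_eq_zero.mp ?_, fun s => ⟨s • pull (Spec.map π) h L x₁, ?_⟩⟩
    · have e1 := hc q (pull (Spec.map π) h L x₁) (y - y')
      rwa [hz, one_smul, map_sub, e, sub_self, zero_smul] at e1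
    · rw [map_smul, hz, smul_eq_mul, mul_one]
  exact nonempty_iso_of_secEquiv (hL.pullback j') (Scheme.Modules.isInvertible_unit _)
    ((LinearEquiv.ofBijective q hb).trans (oneEquiv S))

/-- Rigidity from an identification of the second lattice. -/
theorem isRigid_iff_exists_form {k : Type u} [Field k] {C : Curve2 k} {A : Type u} [CommRing A]
    [Algebra k A] (E : Bdl C A) (Q : C.R1 →ₐ[k] A) {N : Type u} [AddCommGroup N]
    {R : CommRingCat.{u}} [Module R N] (v : R → C.S1 A) (hv : Function.Surjective v)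
    (ι : N →+ E.M) (hinj : Function.Injective ι) (hmem : ∀ m, m ∈ E.L1 ↔ ∃ x, ι x = m)
    (hsm : ∀ (r : R) (x : N), ι (r • x) = C.res1 A (v r) • ι x) :
    E.IsRigid Q ↔ ∃ l : N →+ A, Function.Surjective l ∧
      ∀ (r : R) (x : N), l (r • x) = C.pt1 A Q (v r) * l x := by
  constructor
  · rintro ⟨lam, hsurj, hlam⟩
    let incl : N →+ E.L1 := AddMonoidHom.mk' (fun x => ⟨ι x, (hmem _).mpr ⟨x, rfl⟩⟩)
      fun x y => Subtype.ext (map_add ι x y)
    refine ⟨lam.toAddMonoidHom.comp incl, fun a => ?_, fun r x =>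
      hlam (v r) (incl x) (incl (r • x)) (hsm r x)⟩
    obtain ⟨m, hm⟩ := hsurj a
    obtain ⟨x, hx⟩ := (hmem m.1).mp m.2
    exact ⟨x, (congrArg lam (Subtype.ext hx)).trans hm⟩
  · rintro ⟨l, hl, hlin⟩
    choose x hx using fun m : E.L1 => (hmem m.1).mp m.2
    have key : ∀ (m : E.L1) (y : N), ι y = (m : E.M) → l (x m) = l y :=
      fun m y hy => congrArg l (hinj ((hx m).trans hy.symm))
    have hsl : ∀ (s : C.S1 A) (m m' : E.L1), (m' : E.M) = C.res1 A s • (m : E.M) →
        l (x m') = C.pt1 A Q s * l (x m) := fun s m m' hm => by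
      obtain ⟨r, rfl⟩ := hv s
      exact (key m' (r • x m) (((hsm r (x m)).trans (congrArg _ (hx m))).trans hm.symm)).trans
        (hlin r (x m))
    let lam : E.L1 →ₗ[A] A :=
      { toFun := fun m => l (x m)
        map_add' := fun m m' => (key (m + m') (x m + x m')
          ((map_add ι _ _).trans (congrArg₂ (· + ·) (hx m) (hx m')))).trans (map_add l _ _)
        map_smul' := fun a m => by
          refine (hsl (algebraMap A (C.S1 A) a) m (a • m) ?_).trans ?_
          · show a • (m : E.M) = C.res1 A (algebraMap A _ a) • (m : E.M)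
            rw [AlgHom.commutes, IsScalarTower.algebraMap_smul]
          · rw [AlgHom.commutes]; rfl }
    refine ⟨lam, fun a => ?_, hsl⟩
    obtain ⟨y, hy⟩ := hl a
    exact ⟨⟨ι y, (hmem _).mpr ⟨y, rfl⟩⟩, (key _ y rfl).trans hy⟩

end General

variable {k : Type u} [Field k] {C : Scheme.{u}} {c : C ⟶ Spec (CommRingCat.of k)}
  {ε : SchemeHomOver (𝟙 (Spec (CommRingCat.of k))) c} (P : Pres c ε)
  (A : Type u) [CommRing A] [Algebra k A]

/-- Evaluation of the second chart at the marked point. -/
def evE : R1 P A ⟶ CommRingCat.of A :=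
  CommRingCat.ofHom (P.X.pt1 A ((Algebra.ofId k A).comp P.e)).toRingHom

theorem evE_surjective : Function.Surjective (evE P A) := fun a =>
  ⟨a ⊗ₜ[k] 1, by
    show P.X.pt1 A ((Algebra.ofId k A).comp P.e) (a ⊗ₜ[k] 1) = a
    simp [Curve2.pt1]⟩

theorem evE_j1 : Spec.map (evE P A) ≫ j1 P A = rigSection c (tA (k := k) A) ε := by
  apply pullback.hom_ext
  · refine (Category.assoc _ _ _).trans ((congrArg _ (chart_fst A P.i1 P.over1)).trans
      (Eq.trans ?_ (pullback.lift_fst _ _ _).symm))
    rw [← P.e_spec]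
    show Spec.map (evE P A) ≫ Spec.map (incR A P.X.R1) ≫ P.i1 = Spec.map _ ≫ Spec.map _ ≫ P.i1
    rw [← Spec.map_comp_assoc, ← Spec.map_comp_assoc]
    congr 2
    ext x
    show P.X.pt1 A ((Algebra.ofId k A).comp P.e) ((1 : A) ⊗ₜ[k] x) = algebraMap k A (P.e x)
    simp [Curve2.pt1, Algebra.ofId_apply]
  · refine (Category.assoc _ _ _).trans ((congrArg _ (chart_snd A P.i1 P.over1)).trans
      (Eq.trans ?_ (pullback.lift_snd _ _ _).symm))
    show Spec.map (evE P A) ≫ Spec.map (incA A P.X.R1) = 𝟙 _
    rw [← Spec.map_comp, ← Spec.map_id]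
    congr 1
    ext a
    show P.X.pt1 A ((Algebra.ofId k A).comp P.e) (a ⊗ₜ[k] (1 : P.X.R1)) = a
    simp [Curve2.pt1]

variable {A}

/-- **The bundle is rigid iff the module is trivial along the marked section.** -/
theorem rigid_iff {L : (CA A c).Modules} (hL : Scheme.Modules.IsInvertible L) :
    (toBdl P L hL).IsRigid ((Algebra.ofId k A).comp P.e) ↔
      Nonempty ((Scheme.Modules.pullback (rigSection c (tA (k := k) A) ε)).obj L ≅
        SheafOfModules.unit (Spec (CommRingCat.of A)).ringCatSheaf) :=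
  (isRigid_iff_exists_form (toBdl P L hL) _ (fun r : R1 P A => (r : P.X.S1 A)) (fun s => ⟨s, rfl⟩)
    (res1M P L) (pull_spec_injective (r1 P A) (P.X.res1_injective A) (r1_j1 P A) hL)
    (mem_L1_toBdl P hL) (res1M_smul P L)).trans
    ⟨fun h => h.elim fun l h => nonempty_trivial_of_form (evE P A) (evE_j1 P A) hL l h.1 h.2,
      fun h => h.elim fun e =>
        exists_form_of_trivial (evE P A) (evE_surjective P A) (evE_j1 P A) hL e⟩

end FermatAgent.Pic.Dict

end
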