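import Fermat.Agent.Pic.Bridge.OfBdl
import Fermat.Agent.Pic.Bridge.Pullback
import Fermat.Agent.Pic.Bridge.Rigid

/-!
# The dictionary between invertible modules and bundles

The bundle of an invertible module satisfies the five conditions of `Bridge`.
-/

set_option autoImplicit false

noncomputable section

universe u

open CategoryTheory CategoryTheory.Limits AlgebraicGeometry NeronModelInfra
  AlgebraicGeometry.RelPicard

namespace FermatAgent.Pic.Dict

variable {k : Type u} [Field k] {C : Scheme.{u}} {c : C ⟶ Spec (CommRingCat.of k)}
  {ε : SchemeHomOver (𝟙 (Spec (CommRingCat.of k))) c} (P : Pres c ε)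

/-- **The dictionary**: for a presented curve, invertible modules on the curve over an affine base
correspond up to isomorphism to bundles, compatibly with the unit, base change and rigidity. -/
theorem exists_bridge : Nonempty (Bridge P) :=
  ⟨{ toBdl := fun _ _ _ M hM => toBdl P M hM
     iso_iff := fun _ _ _ _ _ hM hM' =>
       ⟨nonempty_iso_of_bdlIso P hM hM', fun h => h.elim fun i => toBdl_congr P hM hM' i⟩
     surj := fun _ _ _ E => exists_modules P E
     unit := fun _ _ _ => toBdl_unit P
     pullback_map := fun _ _ _ _ _ _ f _ hM => toBdl_pullback P f hM (hM.pullback (bcA (c := c) f))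
     rigid := fun _ _ _ _ hM => rigid_iff P hM }⟩

end FermatAgent.Pic.Dict

end
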