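import Fermat.Agent.Pic.Bridge.ToBdl
import Fermat.Agent.Pic.Bridge.LocalSec

/-!
# The module of a lattice on an affine chart

A lattice with a dual basis of rank one gives an invertible module on the chart, mapping to the
module of the overlap and agreeing with it there.
-/

set_option autoImplicit false

noncomputable section

universe u

open CategoryTheory Limits AlgebraicGeometry TopologicalSpace Opposite

namespace FermatAgent.Pic.Dict

open Glue (mres rres HomOn IsoOn IsBasisOn)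

variable {R S : CommRingCat.{u}}

/-- Multiplication by a function. -/
def scaleEnd {X : Scheme.{u}} (N : X.Modules) (r : Γ(X, ⊤)) : N ⟶ N :=
  HomOn.toHom ((HomOn.id N ⊤).scale r)

theorem scaleEnd_app {X : Scheme.{u}} (N : X.Modules) (r : Γ(X, ⊤)) (V : X.Opens) (s : Γ(N, V)) :
    (scaleEnd N r).app V s = rres (le_top : V ≤ ⊤) r • s := rfl

theorem scaleEnd_app_top (N : (Spec R).Modules) (f : R) (s : Γ(N, ⊤)) :
    (scaleEnd N ((Scheme.ΓSpecIso R).inv f)).app ⊤ s = f • s := by
  rw [scaleEnd_app, Scheme.Modules.smul_Spec_def]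
  rfl

theorem isUnit_rres_dOpen (f : R) {V : (Spec R).Opens} (hV : V ≤ dOpen f) :
    IsUnit (rres (le_top : V ≤ ⊤) ((Scheme.ΓSpecIso R).inv f)) := by
  have h : (Spec R).basicOpen ((Scheme.ΓSpecIso R).inv f) = dOpen f := basicOpen_eq_of_affine f
  have h1 : IsUnit (rres ((Spec R).basicOpen_le _) ((Scheme.ΓSpecIso R).inv f)) :=
    RingedSpace.isUnit_res_basicOpen (Spec R).toLocallyRingedSpace.toRingedSpace _
  have h2 := h1.map (rres (hV.trans h.ge))
  rwa [Glue.rres_rres] at h2

theorem unit_hom_app {X : Scheme.{u}} {N : X.Modules} (b : unitMod X ⟶ N) (V : X.Opens)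
    (r : Γ(X, V)) :
    b.app V (r : Γ(unitMod X, V)) = r • mres N le_top (b.app ⊤ (oneSec X)) := by
  have h1 : (HomOn.ofHom ⊤ b).app V le_top (mres (unitMod X) le_top (oneSec X)) =
      mres N le_top (b.app ⊤ (oneSec X)) := ((HomOn.ofHom ⊤ b).nat ⊤ V le_top le_top _).symm
  rw [← h1]
  refine Eq.trans ?_ (Scheme.Modules.Hom.app_smul b r _)
  refine congrArg (b.app V) ?_
  exact (mul_one r).symm.trans (congrArg (r * ·) (map_one (rres (le_top : V ≤ ⊤))).symm)

/-- **A dual basis of rank one trivialises a module on the loci where a coordinate is a unit.** -/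
theorem isInvertible_of_dualBasis {N : (Spec R).Modules} [N.IsQuasicoherent] {n : ℕ}
    (p : Fin n → Γ(N, ⊤)) (f : Fin n → Γ(N, ⊤) →ₗ[R] R)
    (ht : ∑ i, f i (p i) = 1) (hc : ∀ i x, f i x • p i = f i (p i) • x) :
    Scheme.Modules.IsInvertible N := by
  have := isQuasicoherent_of_isInvertible (Scheme.Modules.isInvertible_unit (Spec R))
  refine Glue.isInvertible_of_locFreeOn fun z _ => ?_
  obtain ⟨i, hi⟩ : ∃ i, z ∈ dOpen (f i (p i)) := by
    by_contra h
    simp only [not_exists] at h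
    refine (z : PrimeSpectrum R).isPrime.ne_top ((Ideal.eq_top_iff_one _).mpr ?_)
    rw [← ht]
    exact sum_mem fun i _ => not_not.mp (h i)
  obtain ⟨a, ha⟩ := exists_hom_unit (f i)
  obtain ⟨b, hb⟩ := exists_unit_hom (p i)
  set t : Γ(Spec R, ⊤) := (Scheme.ΓSpecIso R).inv (f i (p i)) with htdef
  have hab : a ≫ b = scaleEnd N t := sections_hom_ext fun x => by
    rw [scaleEnd_app_top]
    show b.app ⊤ (a.app ⊤ x) = _
    rw [ha, ← hc, ← hb]
    exact Scheme.Modules.Hom.app_smul b _ _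
  have hba : b ≫ a = scaleEnd (unitMod (Spec R)) t := sections_hom_ext fun x => by
    obtain ⟨r, rfl⟩ := (oneEquiv R).surjective x
    rw [scaleEnd_app_top, oneEquiv_apply]
    refine Eq.trans (b := topLin a (topLin b (r • oneSec (Spec R)))) rfl ?_
    rw [map_smul, map_smul]
    show r • a.app ⊤ (b.app ⊤ (oneSec (Spec R))) = _
    rw [hb, ha, smul_comm]
  refine ⟨dOpen (f i (p i)), mres N le_top (p i), le_top, hi, fun V hV => ?_⟩
  have hu := isUnit_rres_dOpen (f i (p i)) hV
  have hfun : (fun r : Γ(Spec R, V) => r • mres N hV (mres N le_top (p i))) =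
      fun r : Γ(Spec R, V) => b.app V (r : Γ(unitMod (Spec R), V)) := funext fun r => by
    rw [Glue.mres_mres, unit_hom_app, hb]
  rw [hfun]
  constructor
  · intro r r' e
    have e1 := congrArg (a.app V) e
    refine hu.mul_left_cancel ?_
    exact ((congr($(hba).app V (r : Γ(unitMod (Spec R), V)))).symm.trans e1).trans
      (congr($(hba).app V (r' : Γ(unitMod (Spec R), V))))
  · intro s
    refine ⟨(hu.unit⁻¹ : (Γ(Spec R, V))ˣ) * Glue.unitFn (a.app V s), ?_⟩
    show b.app V _ = s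
    refine (Scheme.Modules.Hom.app_smul b _ (a.app V s)).trans ?_
    rw [show b.app V (a.app V s) = rres (le_top : V ≤ ⊤) t • s from
      congr($(hab).app V s), smul_smul]
    erw [hu.val_inv_mul, one_smul]

/-- The global sections of the sheaf of a module. -/
def topT (Me : ModuleCat.{u} S) : Me ≃ₗ[S] Γ(tilde Me, ⊤) :=
  (tilde.isoTop Me).toLinearEquiv

/-- **The module of a lattice**: a lattice of rank one in an `S`-module `M` gives an invertible
module on `Spec R` mapping to that of `M`, bijectively over `Spec S`, whose global sections are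
the lattice. -/
theorem exists_piece (φ : R ⟶ S) (hφ : Function.Injective φ) [IsOpenImmersion (Spec.map φ)]
    {M : Type u} [AddCommGroup M] [Module S M] (l : Lat φ.hom M)
    (ht : ∑ i, l.φ i (l.p i) = 1) (hc : ∀ (ψ : M →ₗ[S] S) (a b : M), ψ a • b = ψ b • a) :
    ∃ N : (Spec R).Modules, Scheme.Modules.IsInvertible N ∧
      ∃ h : N ⟶ (Scheme.Modules.pushforward (Spec.map φ)).obj (tilde (ModuleCat.of S M)),
        (∀ V ≤ (Spec.map φ).opensRange, Function.Bijective (h.app V)) ∧
        ∀ m : M, (∀ i, l.φ i m ∈ φ.hom.range) ↔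
          ∃ z, (h.app ⊤ z : Γ(tilde (ModuleCat.of S M), ⊤)) = topT (ModuleCat.of S M) m := by
  let : Module R M := Module.compHom M φ.hom
  let L0 : Submodule R M :=
    { carrier := {m | ∀ i, l.φ i m ∈ φ.hom.range}
      zero_mem' := fun i => by rw [map_zero]; exact zero_mem _
      add_mem' := fun {a b} ha hb i => by rw [map_add]; exact add_mem (ha i) (hb i)
      smul_mem' := fun r m hm i => by
        show l.φ i (φ r • m) ∈ φ.hom.range
        rw [map_smul, smul_eq_mul]
        exact mul_mem ⟨r, rfl⟩ (hm i) }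
  have hinj : Function.Injective φ.hom := hφ
  choose g hg using fun (i : Fin l.n) (m : L0) => m.2 i
  let f : Fin l.n → L0 →ₗ[R] R := fun i =>
    { toFun := g i
      map_add' := fun a b => hinj (by rw [hg, map_add, hg, hg]; exact map_add (l.φ i) _ _)
      map_smul' := fun r a => hinj (by
        rw [hg, RingHom.id_apply, smul_eq_mul, map_mul, hg]
        exact map_smul (l.φ i) (φ r) (a : M)) }
  let q : Fin l.n → L0 := fun j => ⟨l.p j, fun i => l.mem i j⟩
  let T0 : L0 ≃ₗ[R] Γ(tilde (ModuleCat.of R L0), ⊤) := topT (ModuleCat.of R L0)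
  let N0 := tilde (ModuleCat.of R L0)
  let p' : Fin l.n → Γ(N0, ⊤) := fun j => T0 (q j)
  let f' : Fin l.n → Γ(N0, ⊤) →ₗ[R] R := fun i => (f i) ∘ₗ T0.symm.toLinearMap
  have hf' : ∀ i x, f' i (T0 x) = g i x := fun i x => congrArg (g i) (T0.symm_apply_apply x)
  have hsum : ∀ x, ∑ i, f' i x • p' i = x := fun x => by
    obtain ⟨a, rfl⟩ := T0.surjective x
    show ∑ i, f' i (T0 a) • T0 (q i) = T0 a
    rw [← Finset.sum_congr rfl fun i _ => T0.map_smul (f' i (T0 a)) (q i), ← map_sum]
    congr 1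
    refine Subtype.ext ?_
    rw [AddSubmonoidClass.coe_finsetSum]
    refine Eq.trans (Finset.sum_congr rfl fun i _ => ?_) (l.sum_eq a.1)
    show φ (f' i (T0 a)) • l.p i = _
    rw [hf']
    exact congrArg (· • l.p i) (hg i a)
  have htr : ∑ i, f' i (p' i) = 1 := hinj (by
    rw [map_sum, map_one, ← ht]
    exact Finset.sum_congr rfl fun i _ => (congrArg φ.hom (hf' i (q i))).trans (hg i (q i)))
  have hsw : ∀ i x, f' i x • p' i = f' i (p' i) • x := fun i x => by
    obtain ⟨a, rfl⟩ := T0.surjective x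
    show f' i (T0 a) • T0 (q i) = f' i (T0 (q i)) • T0 a
    rw [← T0.map_smul, ← T0.map_smul]
    congr 1
    refine Subtype.ext ?_
    show φ (f' i (T0 a)) • l.p i = φ (f' i (T0 (q i))) • a.1
    rw [hf', hf']
    erw [hg i a, hg i (q i)]
    exact hc (l.φ i) a.1 (l.p i)
  have hN0 : Scheme.Modules.IsInvertible N0 := isInvertible_of_dualBasis p' f' htr hsw
  obtain ⟨F, hF, hFs⟩ := exists_baseChange_dualBasis φ hN0 p' f' hsum
  let e := sec (Spec.map φ) N0
  let T : M ≃ₗ[S] Γ(tilde (ModuleCat.of S M), ⊤) := topT (ModuleCat.of S M)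
  let P := (Scheme.Modules.pullback (Spec.map φ)).obj N0
  have : P.IsQuasicoherent := isQuasicoherent_of_isInvertible (hN0.pullback _)
  let a : Γ(P, ⊤) →ₗ[S] Γ(tilde (ModuleCat.of S M), ⊤) :=
    ∑ i, (LinearMap.toSpanSingleton S _ (T (l.p i))) ∘ₗ F i
  let b : Γ(tilde (ModuleCat.of S M), ⊤) →ₗ[S] Γ(P, ⊤) :=
    ∑ i, (LinearMap.toSpanSingleton S _ (e (p' i))) ∘ₗ l.φ i ∘ₗ T.symm.toLinearMap
  have ha : ∀ y, a y = ∑ i, F i y • T (l.p i) := fun y => by
    simp [a, LinearMap.sum_apply]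
  have hb : ∀ m, b (T m) = ∑ i, l.φ i m • e (p' i) := fun m => by
    simp [b, LinearMap.sum_apply]
  have hFp : ∀ i j, F i (e (p' j)) = l.φ i (l.p j) := fun i j => by
    refine (hF i (p' j)).trans ((congrArg φ (hf' i (q j))).trans ?_)
    exact hg i (q j)
  have hae : ∀ x, a (e (T0 x)) = T x.1 := fun x => by
    rw [ha, Finset.sum_congr rfl fun i _ => (T.map_smul (F i (e (T0 x))) (l.p i)).symm, ← map_sum]
    congr 1
    refine Eq.trans (Finset.sum_congr rfl fun i _ => ?_) (l.sum_eq x.1)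
    refine congrArg (· • l.p i) ((hF i (T0 x)).trans ((congrArg φ (hf' i x)).trans ?_))
    exact hg i x
  obtain ⟨α, hα⟩ := exists_hom_of_linear a
  obtain ⟨β, hβ⟩ := exists_hom_of_linear b
  have hαβ : α ≫ β = 𝟙 P := sections_hom_ext fun y => by
    show β.app ⊤ (α.app ⊤ y) = y
    rw [hα, hβ, ha, map_sum]
    refine Eq.trans (Finset.sum_congr rfl fun i _ => ?_) (hFs y)
    rw [map_smul, hb]
    congr 1
    refine Eq.trans (Finset.sum_congr rfl fun j _ => ?_) (hFs (e (p' i)))
    exact congrArg (· • e (p' j)) (hFp j i).symm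
  have hβα : β ≫ α = 𝟙 _ := sections_hom_ext fun y => by
    show α.app ⊤ (β.app ⊤ y) = y
    obtain ⟨m, rfl⟩ := T.surjective y
    rw [hα, hβ, hb, map_sum]
    refine Eq.trans (Finset.sum_congr rfl fun i _ => ?_)
      ((map_sum T _ _).symm.trans (congrArg T (l.sum_eq m)))
    rw [map_smul, T.map_smul]
    exact congrArg _ (hae (q i))
  have : IsIso α := ⟨β, hαβ, hβα⟩
  refine ⟨N0, hN0, (Scheme.Modules.pullbackPushforwardAdjunction (Spec.map φ)).homEquiv _ _ α,
    fun V hV => ?_, fun m => ?_⟩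
  · rw [Adjunction.homEquiv_unit]
    exact (ConcreteCategory.bijective_of_isIso (α.app (Spec.map φ ⁻¹ᵁ V))).comp
      (η_bijective (Spec.map φ) N0 hV)
  · rw [Adjunction.homEquiv_unit]
    have key : ∀ x : L0, (α.app (Spec.map φ ⁻¹ᵁ ⊤) (η (Spec.map φ) N0 ⊤ (T0 x)) :
        Γ(tilde (ModuleCat.of S M), ⊤)) = T x.1 := fun x => (hα _).trans (hae x)
    refine ⟨fun hm => ⟨T0 ⟨m, hm⟩, key ⟨m, hm⟩⟩, fun ⟨z, hz⟩ => ?_⟩
    obtain ⟨x, rfl⟩ := T0.surjective z
    obtain rfl := T.injective ((key x).symm.trans hz)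
    exact x.2

end FermatAgent.Pic.Dict
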