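import Fermat.Agent.Pic.Bridge.IsoOf
import Fermat.Agent.Pic.Bridge.Piece
import Fermat.Agent.Pic.Coh.Iso
import Fermat.Agent.Pic.Glue.Module

/-!
# Every bundle comes from an invertible module

The modules of the two lattices on the charts are glued along the module of the overlap.
-/

set_option autoImplicit false

noncomputable section

universe u

open CategoryTheory CategoryTheory.Limits AlgebraicGeometry NeronModelInfra
  AlgebraicGeometry.RelPicard TopologicalSpace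
open scoped TensorProduct

namespace FermatAgent.Pic.Dict

open Glue (mres rres HomOn IsoOn LocFreeOn)

/-- A morphism bijective below an open is an isomorphism over it. -/
theorem exists_isoOn_of_bijective {X : Scheme.{u}} {N N' : X.Modules} {W : X.Opens} (h : N ⟶ N')
    (hb : ∀ V ≤ W, Function.Bijective (h.app V)) :
    ∃ e : IsoOn W N N', ∀ V hV s, e.hom.app V hV s = h.app V s := by
  choose inv hinv using fun V (hV : V ≤ W) t => (hb V hV).2 t
  refine ⟨⟨HomOn.ofHom W h,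
    { app := fun V hV => AddMonoidHom.mk' (inv V hV) fun a b => (hb V hV).1 (by
        rw [map_add, hinv, hinv, hinv])
      smul := fun V hV r a => (hb V hV).1 ?_
      nat := fun V V' hV h' a => (hb V' (h'.trans hV)).1 ?_ },
    fun V hV s => (hb V hV).1 (hinv V hV _), fun V hV s => hinv V hV s⟩, fun V hV s => rfl⟩
  · show h.app V (inv V hV (r • a)) = h.app V (r • inv V hV a)
    rw [hinv, Scheme.Modules.Hom.app_smul, hinv]
  · show h.app V' (mres N h' (inv V hV a)) = h.app V' (inv V' _ (mres N' h' a))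
    rw [hinv]
    exact ((HomOn.ofHom W h).nat V V' hV h' (inv V hV a)).symm.trans (congrArg _ (hinv V hV a))

/-- The module of a lattice on a chart, mapping to the module of the overlap. -/
theorem exists_chart_piece {R S : CommRingCat.{u}} {X : Scheme.{u}} (φ : R ⟶ S)
    (hφ : Function.Injective φ) {j : Spec R ⟶ X} [IsOpenImmersion j] {j' : Spec S ⟶ X}
    [IsOpenImmersion j'] (hj : Spec.map φ ≫ j = j') {M : Type u} [AddCommGroup M] [Module S M]
    (l : Lat φ.hom M) (ht : ∑ i, l.φ i (l.p i) = 1)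
    (hc : ∀ (ψ : M →ₗ[S] S) (a b : M), ψ a • b = ψ b • a) :
    ∃ N : X.Modules, LocFreeOn N j.opensRange ∧
      ∃ h : N ⟶ (Scheme.Modules.pushforward j').obj (tilde (ModuleCat.of S M)),
        (∀ V ≤ j'.opensRange, Function.Bijective (h.app V)) ∧
        ∀ (W : X.Opens) (_ : W = j.opensRange) (hW' : ⊤ ≤ j' ⁻¹ᵁ W) (m : M),
          (∀ i, l.φ i m ∈ φ.hom.range) ↔
            ∃ z : Γ(N, W), mres (tilde (ModuleCat.of S M)) hW' (h.app W z) =
              topT (ModuleCat.of S M) m := by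
  subst hj
  have : IsOpenImmersion (Spec.map φ) := IsOpenImmersion.of_comp _ j
  obtain ⟨N0, hN0, h0, hb, hmem⟩ := exists_piece φ hφ l ht hc
  refine ⟨(Scheme.Modules.pushforward j).obj N0, Glue.locFreeOn_pushforward j hN0,
    (Scheme.Modules.pushforward j).map h0 ≫
      (Scheme.Modules.pushforwardComp (Spec.map φ) j).hom.app _, fun V hV => ?_,
    fun W hW hW' m => ?_⟩
  · refine hb (j ⁻¹ᵁ V) fun y hy => ?_
    obtain ⟨z, hz⟩ := hV hy
    exact ⟨z, j.isOpenEmbedding.injective ((Scheme.Hom.comp_apply _ _ _).symm.trans hz)⟩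
  · have e1 : (⊤ : (Spec R).Opens) ≤ j ⁻¹ᵁ W := fun y _ => by rw [hW]; exact ⟨y, rfl⟩
    refine (hmem m).trans ⟨fun ⟨z, hz⟩ => ⟨mres N0 le_top z, ?_⟩,
      fun ⟨z, hz⟩ => ⟨mres N0 e1 z, ?_⟩⟩
    · refine Eq.trans ?_ hz
      show mres _ hW' (h0.app (j ⁻¹ᵁ W) (mres N0 le_top z)) = h0.app ⊤ z
      rw [show h0.app (j ⁻¹ᵁ W) (mres N0 le_top z) = mres _ le_top (h0.app ⊤ z) from
        ((HomOn.ofHom ⊤ h0).nat ⊤ _ le_top le_top z).symm]
      exact (Glue.mres_mres _ _ _).trans (Glue.mres_self _ _)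
    · refine Eq.trans ?_ hz
      exact ((HomOn.ofHom ⊤ h0).nat (j ⁻¹ᵁ W) ⊤ le_top e1 z).symm

/-- A map to the push-forward of `M~` bijective on an open of the chart identifies the sections on
the chart with `M`. -/
private theorem exists_sec_equiv {X : Scheme.{u}} {R : CommRingCat.{u}} (j : Spec R ⟶ X)
    [IsOpenImmersion j] {L : X.Modules} {M : ModuleCat.{u} R}
    (H : L ⟶ (Scheme.Modules.pushforward j).obj (tilde M)) {W : X.Opens}
    (hWj : W ≤ j.opensRange) (hW : ⊤ ≤ j ⁻¹ᵁ W) (hH : Function.Bijective (H.app W)) :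
    ∃ e : Sec j L ≃ₗ[R] M, ∀ (V : X.Opens) (hV : ⊤ ≤ j ⁻¹ᵁ V) (s : Γ(L, V)),
      topT M (e (secOn j L V hV s)) = mres (tilde M) hV (H.app V s) := by
  let ev := (Scheme.Modules.pullback j).map H ≫
    (Scheme.Modules.pullbackPushforwardAdjunction j).counit.app (tilde M)
  have hev : ∀ (V : X.Opens) (hV : ⊤ ≤ j ⁻¹ᵁ V) (s : Γ(L, V)),
      topLin ev (secOn j L V hV s) = mres (tilde M) hV (H.app V s) := fun V hV s => by
    show (((Scheme.Modules.pullbackPushforwardAdjunction j).counit.app (tilde M)).app ⊤)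
      (((Scheme.Modules.pullback j).map H).app ⊤ _) = _
    rw [secOn_natural]
    exact counit_secOn j (tilde M) V hV (H.app V s)
  have hbij : Function.Bijective (topLin ev) := by
    rw [← Function.Bijective.of_comp_iff _ (secOn_bijective j L hWj hW),
      show topLin ev ∘ secOn j L W hW = mres (tilde M) hW ∘ H.app W from funext fun s => hev W hW s]
    exact (Glue.mres_bijective_of_le (M := tilde M) hW le_top).comp hH
  exact ⟨(LinearEquiv.ofBijective (topLin ev) hbij).trans (topT M).symm,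
    fun V hV s => ((topT M).apply_symm_apply _).trans (hev V hV s)⟩

variable {k : Type u} [Field k] {C : Scheme.{u}} {c : C ⟶ Spec (CommRingCat.of k)}
  {ε : SchemeHomOver (𝟙 (Spec (CommRingCat.of k))) c} (P : Pres c ε)
  {A : Type u} [CommRing A] [Algebra k A]

/-- **Every bundle comes from an invertible module.** -/
theorem exists_modules (E : Bdl P.X A) :
    ∃ (L : (CA A c).Modules) (hL : Scheme.Modules.IsInvertible L),
      Nonempty (Bdl.Iso (toBdl P L hL) E) := by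
  let : Module (R01 P A) E.M := inferInstanceAs (Module (P.X.S01 A) E.M)
  have hc : ∀ (ψ : E.M →ₗ[R01 P A] R01 P A) (a b : E.M), ψ a • b = ψ b • a :=
    fun ψ a b => E.apply_smul_comm ψ a b
  obtain ⟨N₀, hN₀, h₀, hb₀, hm₀⟩ := exists_chart_piece (r0 P A) (r0_injective P A)
    (j := j0 P A) (j' := j01 P A) rfl (M := E.M) E.l0 E.sum_φ_p_L0 hc
  obtain ⟨N₁, hN₁, h₁, hb₁, hm₁⟩ := exists_chart_piece (r1 P A) (r1_injective P A)
    (r1_j1 P A) (M := E.M) E.l1 E.sum_φ_p_L1 hc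
  let Mt := tilde (ModuleCat.of (R01 P A) E.M)
  let N01 := (Scheme.Modules.pushforward (j01 P A)).obj Mt
  obtain ⟨ψ₀, hψ₀⟩ := exists_isoOn_of_bijective h₀ hb₀
  obtain ⟨ψ₁, hψ₁⟩ := exists_isoOn_of_bijective h₁ hb₁
  let W₀ := (j0 P A).opensRange
  let W₁ := (j1 P A).opensRange
  let U : ULift.{u} Bool → (CA A c).Opens := fun b => bif b.down then W₁ else W₀
  let N : ULift.{u} Bool → (CA A c).Modules := fun b => bif b.down then N₁ else N₀
  let h : ∀ b, N b ⟶ N01 := fun b => match b with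
    | ⟨false⟩ => h₀
    | ⟨true⟩ => h₁
  let φ : ∀ b b', HomOn (U b ⊓ U b') (N b) (N b') := fun b b' => match b, b' with
    | ⟨false⟩, ⟨false⟩ => HomOn.id _ _
    | ⟨true⟩, ⟨true⟩ => HomOn.id _ _
    | ⟨false⟩, ⟨true⟩ =>
      ((ψ₀.trans ψ₁.symm).restrict (le_range_j01 P A inf_le_left inf_le_right)).hom
    | ⟨true⟩, ⟨false⟩ =>
      ((ψ₁.trans ψ₀.symm).restrict (le_range_j01 P A inf_le_right inf_le_left)).hom
  have hφ : ∀ b b' V (hV : V ≤ U b ⊓ U b') s,
      (h b').app V ((φ b b').app V hV s) = (h b).app V s := by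
    rintro ⟨⟨⟩⟩ ⟨⟨⟩⟩ V hV s
    · rfl
    · show h₁.app V (ψ₁.inv.app V _ (ψ₀.hom.app V _ s)) = h₀.app V s
      rw [← hψ₀ V (hV.trans (le_range_j01 P A inf_le_left inf_le_right)),
        ← hψ₁ V (hV.trans (le_range_j01 P A inf_le_left inf_le_right)), ψ₁.inv_hom]
    · show h₀.app V (ψ₀.inv.app V _ (ψ₁.hom.app V _ s)) = h₁.app V s
      rw [← hψ₀ V (hV.trans (le_range_j01 P A inf_le_right inf_le_left)),
        ← hψ₁ V (hV.trans (le_range_j01 P A inf_le_right inf_le_left)), ψ₀.inv_hom]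
    · rfl
  let D : Glue.GlueData (CA A c) :=
    { ι := ULift.{u} Bool
      U := U
      N := N
      φ := φ
      id_apply := by rintro ⟨⟨⟩⟩ V hV s <;> rfl
      comp_apply := by
        rintro ⟨⟨⟩⟩ ⟨⟨⟩⟩ ⟨⟨⟩⟩ V h1 h2 h3 s
        · rfl
        · rfl
        · exact (ψ₀.trans ψ₁.symm).hom_inv V _ s
        · rfl
        · rfl
        · exact (ψ₁.trans ψ₀.symm).hom_inv V _ s
        · rfl
        · rfl }
  have hcov : (⊤ : (CA A c).Opens) ≤ iSup D.U :=
    (cover_charts P A).trans (sup_le (le_iSup D.U ⟨false⟩) (le_iSup D.U ⟨true⟩))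
  have hNU : ∀ b, LocFreeOn (D.N b) (D.U b) := by
    rintro ⟨⟨⟩⟩
    · exact hN₀
    · exact hN₁
  have hL : Scheme.Modules.IsInvertible D.glued := Glue.isInvertible_of_locFreeOn fun z _ => by
    obtain ⟨b, hb⟩ := Opens.mem_iSup.1 (hcov (trivial : z ∈ (⊤ : (CA A c).Opens)))
    obtain ⟨V, g, hV, hzV, hg⟩ := ((hNU b).of_iso (D.gluedIso b).symm) z hb
    exact ⟨V, g, le_top, hzV, hg⟩
  obtain ⟨a, ha⟩ := HomOn.exists_glue (W := ⊤) D.U hcov
    (fun b => (D.gluedIso b).hom.comp (HomOn.ofHom _ (h b))) fun b b' V hb hb' s => by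
      show (h b).app V ((D.gluedIso b).hom.app V hb s) =
        (h b').app V ((D.gluedIso b').hom.app V hb' s)
      rw [← D.φ_gluedIso b b' V hb hb' s]
      exact (hφ b b' V (le_inf hb hb') _).symm
  let H : D.glued ⟶ N01 := a.toHom
  have hH : ∀ b V (hb : V ≤ D.U b) s, H.app V s = (h b).app V ((D.gluedIso b).hom.app V hb s) :=
    fun b V hb s => ha b V le_top hb s
  let W := (j01 P A).opensRange
  have hW : ⊤ ≤ j01 P A ⁻¹ᵁ W := fun y _ => ⟨y, rfl⟩
  have hW0 : W ≤ W₀ := fun z hz => ((Set.ext_iff.mp (range_j01 P A) z).mp hz).1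
  have hW1 : W ≤ W₁ := fun z hz => ((Set.ext_iff.mp (range_j01 P A) z).mp hz).2
  have hHb : Function.Bijective (H.app W) := by
    have e : (fun s => H.app W s) = h₀.app W ∘ (D.gluedIso ⟨false⟩).hom.app W hW0 :=
      funext fun s => hH ⟨false⟩ W hW0 s
    rw [show ⇑(H.app W) = _ from e]
    exact (hb₀ W le_rfl).comp ⟨Function.LeftInverse.injective ((D.gluedIso ⟨false⟩).hom_inv W hW0),
      Function.RightInverse.surjective ((D.gluedIso ⟨false⟩).inv_hom W hW0)⟩
  let T : E.M ≃ₗ[R01 P A] Γ(Mt, ⊤) := topT (ModuleCat.of (R01 P A) E.M)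
  obtain ⟨e, he⟩ := exists_sec_equiv (j01 P A) (M := ModuleCat.of (R01 P A) E.M) H le_rfl hW hHb
  have key : ∀ (R : CommRingCat.{u}) (r : R ⟶ R01 P A) (j : Spec R ⟶ CA A c)
      [IsOpenImmersion j] (hj : Spec.map r ≫ j = j01 P A) (l : Lat r.hom E.M) (b : ULift.{u} Bool)
      (_ : D.U b = j.opensRange) (hWb : ⊤ ≤ j01 P A ⁻¹ᵁ D.U b)
      (_ : ∀ m, (∀ i, l.φ i m ∈ r.hom.range) ↔
        ∃ z, mres Mt hWb ((h b).app (D.U b) z) = T m) (y : Sec (j01 P A) D.glued),
      (∀ i, l.φ i (e y) ∈ r.hom.range) ↔ ∃ x, pull (Spec.map r) hj D.glued x = y := by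
    intro R r j _ hj l b hUb hWb hmem y
    refine (hmem (e y)).trans ?_
    have hjb : ⊤ ≤ j ⁻¹ᵁ D.U b := fun y _ => by rw [hUb]; exact ⟨y, rfl⟩
    have hp : ∀ s, T (e (pull (Spec.map r) hj D.glued (secOn j D.glued (D.U b) hjb s))) =
        mres Mt hWb ((h b).app (D.U b) ((D.gluedIso b).hom.app _ le_rfl s)) := fun s => by
      rw [pull_secOn (Spec.map r) hj D.glued (le_refl (D.U b)) hjb hWb s, he, Glue.mres_self,
        hH b _ le_rfl]
    constructor
    · rintro ⟨z, hz⟩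
      refine ⟨secOn j D.glued (D.U b) hjb ((D.gluedIso b).inv.app _ le_rfl z),
        e.injective (T.injective ?_)⟩
      rw [hp, (D.gluedIso b).inv_hom]
      exact hz
    · rintro ⟨x, rfl⟩
      obtain ⟨s, rfl⟩ := (secOn_bijective j D.glued hUb.le hjb).2 x
      exact ⟨(D.gluedIso b).hom.app _ le_rfl s, (hp s).symm⟩
  refine ⟨D.glued, hL, ⟨⟨e, fun y => ?_, fun y => ?_⟩⟩⟩
  · refine Bdl.mem_L0.trans ((key _ (r0 P A) (j0 P A) rfl E.l0 ⟨false⟩ rfl
      (hW.trans ((j01 P A).preimage_mono hW0)) (hm₀ W₀ rfl _) y).trans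
        (mem_L0_toBdl P hL y).symm)
  · refine Bdl.mem_L1.trans ((key _ (r1 P A) (j1 P A) (r1_j1 P A) E.l1 ⟨true⟩ rfl
      (hW.trans ((j01 P A).preimage_mono hW1)) (hm₁ W₁ rfl _) y).trans
        (mem_L1_toBdl P hL y).symm)

end FermatAgent.Pic.Dict
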