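import Fermat.Agent.Pic.Bridge.Lift

/-!
# Sections over affine schemes mapping to a scheme

For `Spec R` mapping to a scheme the sections of an inverse image of an invertible module form an
invertible `R`-module, and their dual bases commute with base change.
-/

set_option autoImplicit false

noncomputable section

universe u

open CategoryTheory Limits AlgebraicGeometry TopologicalSpace Opposite
open scoped TensorProduct

namespace FermatAgent.Pic.Dict

variable {R S : CommRingCat.{u}} {X X' : Scheme.{u}}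

/-- Pulling sections back along a map of affine schemes is semilinear. -/
theorem pull_smul_spec (φ : R ⟶ S) {j : Spec R ⟶ X} {j' : Spec S ⟶ X}
    (h : Spec.map φ ≫ j = j') (L : X.Modules) (r : R) (x : Sec j L) :
    pull (Spec.map φ) h L (r • x) = φ r • pull (Spec.map φ) h L x := by
  rw [Scheme.Modules.smul_Spec_def, pull_smul]
  exact appTop_smul_spec φ r (M := (Scheme.Modules.pullback j').obj L) _

theorem secComp_smul_spec (j : Spec R ⟶ X') (g : X' ⟶ X) (L : X.Modules) (r : R)
    (x : Sec j ((Scheme.Modules.pullback g).obj L)) :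
    secComp j g L (r • x) = r • secComp j g L x := by
  rw [Scheme.Modules.smul_Spec_def, secComp_smul, Scheme.Modules.smul_Spec_def]

/-- **Base change of a dual basis of sections** along a map `Spec S → Spec R` over the scheme. -/
theorem exists_pull_dualBasis (φ : R ⟶ S) {j : Spec R ⟶ X} {j' : Spec S ⟶ X}
    (h : Spec.map φ ≫ j = j') {L : X.Modules} (hL : Scheme.Modules.IsInvertible L) {n : ℕ}
    (p : Fin n → Sec j L) (f : Fin n → Sec j L →ₗ[R] R) (hpf : ∀ m, ∑ i, f i m • p i = m) :
    ∃ f' : Fin n → Sec j' L →ₗ[S] S, (∀ i x, f' i (pull (Spec.map φ) h L x) = φ (f i x)) ∧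
      ∀ y : Sec j' L, ∑ i, f' i y • pull (Spec.map φ) h L (p i) = y := by
  subst h
  obtain ⟨f₁, hf₁, hs₁⟩ := exists_baseChange_dualBasis φ (hL.pullback j) p f hpf
  let e : Γ((Scheme.Modules.pullback (Spec.map φ)).obj ((Scheme.Modules.pullback j).obj L), ⊤) ≃ₗ[S]
      Sec (Spec.map φ ≫ j) L :=
    { AddEquiv.ofBijective _ (secComp_bijective (Spec.map φ) j L) with
      map_smul' := fun r x => secComp_smul_spec (Spec.map φ) j L r x }
  have he : ∀ x : Sec j L, e (sec (Spec.map φ) _ x) = pull (Spec.map φ) rfl L x := fun x => rfl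
  refine ⟨fun i => f₁ i ∘ₗ e.symm.toLinearMap, fun i x => ?_, fun y => ?_⟩
  · rw [← he, LinearMap.comp_apply, LinearEquiv.coe_coe, LinearEquiv.symm_apply_apply]
    exact hf₁ i x
  · have h1 := congrArg e (hs₁ (e.symm y))
    rw [map_sum, LinearEquiv.apply_symm_apply] at h1
    refine Eq.trans (Finset.sum_congr rfl fun i _ => ?_) h1
    exact (e.map_smul _ _).symm

/-- A dual basis of the sections of an invertible module. -/
theorem exists_sec_dualBasis (j : Spec R ⟶ X) {L : X.Modules}
    (hL : Scheme.Modules.IsInvertible L) :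
    ∃ (n : ℕ) (p : Fin n → Sec j L) (f : Fin n → Sec j L →ₗ[R] R),
      (∀ m, ∑ i, f i m • p i = m) ∧ (∑ i, f i (p i) = 1) ∧
        ∀ (ψ : Sec j L →ₗ[R] R) (a b : Sec j L), ψ a • b = ψ b • a :=
  exists_dualBasis (hL.pullback j)

/-- Pulling sections of an invertible module back along an injective map of rings is injective. -/
theorem pull_spec_injective (φ : R ⟶ S) (hφ : Function.Injective φ) {j : Spec R ⟶ X}
    {j' : Spec S ⟶ X} (h : Spec.map φ ≫ j = j') {L : X.Modules}
    (hL : Scheme.Modules.IsInvertible L) : Function.Injective (pull (Spec.map φ) h L) := by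
  obtain ⟨n, p, f, hs, -, -⟩ := exists_sec_dualBasis j hL
  obtain ⟨f', hf', -⟩ := exists_pull_dualBasis φ h hL p f hs
  intro x x' e
  rw [← hs x, ← hs x']
  refine Finset.sum_congr rfl fun i _ => ?_
  rw [hφ ((hf' i x).symm.trans ((congrArg (f' i) e).trans (hf' i x')))]

/-- A module with a dual basis of rank one is invertible. -/
theorem invertible_of_dualBasis {T M : Type u} [CommRing T] [AddCommGroup M] [Module T M] {n : ℕ}
    (p : Fin n → M) (f : Fin n → M →ₗ[T] T) (hs : ∀ m, ∑ i, f i m • p i = m)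
    (ht : ∑ i, f i (p i) = 1) (hc : ∀ (ψ : M →ₗ[T] T) (a b : M), ψ a • b = ψ b • a) :
    Module.Invertible T M := by
  let l : M ⊗[T] Module.Dual T M →ₗ[T] T :=
    contractRight T M
  let r : T →ₗ[T] M ⊗[T] Module.Dual T M :=
    LinearMap.toSpanSingleton T _ (∑ i, p i ⊗ₜ f i)
  have h1 : l ∘ₗ r = LinearMap.id := LinearMap.ext_ring <| by
    simp [l, r, contractRight_apply, map_sum, ht]
  have h2 : r ∘ₗ l = LinearMap.id := TensorProduct.ext' fun m ψ => by
    show ψ m • ∑ i, p i ⊗ₜ[T] f i = m ⊗ₜ[T] ψ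
    rw [Finset.smul_sum, Finset.sum_congr rfl fun i _ => by
      rw [TensorProduct.smul_tmul', hc ψ m (p i), TensorProduct.smul_tmul],
      ← TensorProduct.tmul_sum]
    congr 1
    ext x
    conv_rhs => rw [← hs x]
    simp [map_sum, mul_comm]
  exact Module.Invertible.left (LinearEquiv.ofLinearMap l r h1 h2)

/-- The sections over `Spec R` of the inverse image of an invertible module form an invertible
`R`-module. -/
theorem invertible_sec (j : Spec R ⟶ X) {L : X.Modules} (hL : Scheme.Modules.IsInvertible L) :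
    Module.Invertible R (Sec j L) := by
  obtain ⟨n, p, f, hs, ht, hc⟩ := exists_sec_dualBasis j hL
  exact invertible_of_dualBasis p f hs ht hc

/-- The map of sections induced by a commuting square over affine schemes. -/
def bcMap (g : X' ⟶ X) (φ : R ⟶ S) {j : Spec R ⟶ X} {j' : Spec S ⟶ X'}
    (h : Spec.map φ ≫ j = j' ≫ g) (L : X.Modules) :
    Sec j L →+ Sec j' ((Scheme.Modules.pullback g).obj L) :=
  (AddEquiv.ofBijective _ (secComp_bijective j' g L)).symm.toAddMonoidHom.comp
    (pull (Spec.map φ) h L)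

theorem secComp_bcMap (g : X' ⟶ X) (φ : R ⟶ S) {j : Spec R ⟶ X} {j' : Spec S ⟶ X'}
    (h : Spec.map φ ≫ j = j' ≫ g) (L : X.Modules) (x : Sec j L) :
    secComp j' g L (bcMap g φ h L x) = pull (Spec.map φ) h L x :=
  (AddEquiv.ofBijective _ (secComp_bijective j' g L)).apply_symm_apply _

/-- Base change of sections is semilinear. -/
theorem bcMap_smul (g : X' ⟶ X) (φ : R ⟶ S) {j : Spec R ⟶ X} {j' : Spec S ⟶ X'}
    (h : Spec.map φ ≫ j = j' ≫ g) (L : X.Modules) (r : R) (x : Sec j L) :
    bcMap g φ h L (r • x) = φ r • bcMap g φ h L x := by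
  apply (secComp_bijective j' g L).injective
  rw [secComp_bcMap, secComp_smul_spec, secComp_bcMap, pull_smul_spec]

/-- A dual basis of sections gives one for the inverse image along a map of schemes. -/
theorem exists_bcMap_dualBasis (g : X' ⟶ X) (φ : R ⟶ S) {j : Spec R ⟶ X} {j' : Spec S ⟶ X'}
    (h : Spec.map φ ≫ j = j' ≫ g) {L : X.Modules} (hL : Scheme.Modules.IsInvertible L) {n : ℕ}
    (p : Fin n → Sec j L) (f : Fin n → Sec j L →ₗ[R] R) (hpf : ∀ m, ∑ i, f i m • p i = m) :
    ∃ f' : Fin n → Sec j' ((Scheme.Modules.pullback g).obj L) →ₗ[S] S,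
      (∀ i x, f' i (bcMap g φ h L x) = φ (f i x)) ∧
        ∀ y : Sec j' ((Scheme.Modules.pullback g).obj L),
          ∑ i, f' i y • bcMap g φ h L (p i) = y := by
  obtain ⟨f₁, hf₁, hs₁⟩ := exists_pull_dualBasis φ h hL p f hpf
  let e : Sec j' ((Scheme.Modules.pullback g).obj L) →ₗ[S] Sec (j' ≫ g) L :=
    { secComp j' g L with map_smul' := secComp_smul_spec j' g L }
  refine ⟨fun i => f₁ i ∘ₗ e, fun i x => ?_, fun y => ?_⟩
  · show f₁ i (secComp j' g L (bcMap g φ h L x)) = _
    rw [secComp_bcMap, hf₁]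
  · apply (secComp_bijective j' g L).injective
    rw [map_sum]
    refine Eq.trans (Finset.sum_congr rfl fun i _ => ?_) (hs₁ (e y))
    rw [secComp_smul_spec, secComp_bcMap]
    rfl

/-- Base change of sections commutes with restriction. -/
theorem bcMap_pull (g : X' ⟶ X) {R' S' : CommRingCat.{u}} (φ : R ⟶ S) (φ' : R' ⟶ S')
    (a : R ⟶ R') (b : S ⟶ S') (hsq : φ ≫ b = a ≫ φ') {j : Spec R ⟶ X} {j' : Spec S ⟶ X'}
    (h : Spec.map φ ≫ j = j' ≫ g) {j₂ : Spec R' ⟶ X} {j₂' : Spec S' ⟶ X'}
    (h₂ : Spec.map φ' ≫ j₂ = j₂' ≫ g) (ha : Spec.map a ≫ j = j₂) (hb : Spec.map b ≫ j' = j₂')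
    (L : X.Modules) (x : Sec j L) :
    bcMap g φ' h₂ L (pull (Spec.map a) ha L x) =
      pull (Spec.map b) hb _ (bcMap g φ h L x) := by
  refine (secComp_bijective j₂' g L).injective ?_
  refine (secComp_bcMap g φ' h₂ L _).trans (Eq.trans ?_
    (secComp_pull (Spec.map b) hb g L (bcMap g φ h L x)).symm)
  refine Eq.trans ?_ (congrArg _ (secComp_bcMap g φ h L x)).symm
  refine (pull_pull ha h₂ L x).trans (Eq.trans ?_ (pull_pull h _ L x).symm)
  exact pull_congr (by rw [← Spec.map_comp, ← Spec.map_comp, hsq]) _ _ L x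

end FermatAgent.Pic.Dict
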