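import Fermat.Agent.Pic.Bridge.Sec

/-!
# Invertible modules are quasi-coherent and trivial on small basic opens
-/

set_option autoImplicit false

noncomputable section

universe u

open CategoryTheory Limits AlgebraicGeometry TopologicalSpace Opposite

namespace FermatAgent.Pic.Dict

variable {X Y : Scheme.{u}}

set_option backward.isDefEq.respectTransparency false in
/-- An invertible module is quasi-coherent. -/
theorem isQuasicoherent_of_isInvertible {L : X.Modules}
    (hL : Scheme.Modules.IsInvertible L) : L.IsQuasicoherent := by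
  choose U hxU e using hL.exists_trivialization
  refine SheafOfModules.QuasicoherentData.isQuasicoherent (M := L) (R := X.ringCatSheaf)
    { I := X
      X := U
      coversTop := (Opens.coversTop_iff X U).mpr
        (top_unique fun x _ => Opens.mem_iSup.mpr ⟨x, hxU x⟩)
      presentation := fun x => ?_ }
  have e' : (Scheme.Modules.overEquiv (U x)).functor.obj ((unitMod X).over (U x)) ≅
      (Scheme.Modules.overEquiv (U x)).functor.obj (L.over (U x)) :=
    (Scheme.Modules.overFunctorEquiv (U x)).app (unitMod X) ≪≫
      Scheme.Modules.restrictUnitIso (U x).ι ≪≫ (e x).some.symm ≪≫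
      ((Scheme.Modules.restrictFunctorIsoPullback (U x).ι).app L).symm ≪≫
      ((Scheme.Modules.overFunctorEquiv (U x)).app L).symm
  have i1 : SheafOfModules.unit (X.ringCatSheaf.over (U x)) ≅ L.over (U x) :=
    (Scheme.Modules.overEquiv (U x)).functor.preimageIso e'
  let i2 : SheafOfModules.free (R := X.ringCatSheaf.over (U x)) PUnit.{u + 1} ≅
      SheafOfModules.unit (X.ringCatSheaf.over (U x)) :=
    coproductUniqueIso _
  refine SheafOfModules.Presentation.ofIsIso.{u} i1.hom
    (SheafOfModules.presentationOfIsCokernelFree (ι := PEmpty.{u + 1}) 0 i2.hom zero_comp ?_)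
  exact Cofork.IsColimit.mk _ (fun s => i2.inv ≫ s.π) (fun s => by simp)
    fun s m hm => by rw [← hm]; simp

/-- The basic open of an element inside an affine scheme, as a morphism. -/
abbrev awayMap {R : CommRingCat.{u}} (f : R) :
    Spec (CommRingCat.of (Localization.Away (f : R))) ⟶ Spec R :=
  Spec.map (CommRingCat.ofHom (algebraMap R (Localization.Away f)))

/-- The range of the basic open is the basic open. -/
theorem awayMap_opensRange {R : CommRingCat.{u}} (f : R) :
    (awayMap f) ''ᵁ ⊤ = PrimeSpectrum.basicOpen f := by
  refine SetLike.coe_injective ?_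
  rw [Scheme.Hom.image_top_eq_opensRange, Scheme.Hom.coe_opensRange]
  exact PrimeSpectrum.localization_away_comap_range (Localization.Away f) f

/-- On an affine scheme an invertible module is trivial on a basic open around each point. -/
theorem exists_awayIso {R : CommRingCat.{u}} {N : (Spec R).Modules}
    (hN : Scheme.Modules.IsInvertible N) (x : Spec R) :
    ∃ f : R, f ∉ (x : PrimeSpectrum R).asIdeal ∧
      Nonempty (N.restrict (awayMap f) ≅ unitMod _) := by
  obtain ⟨U, hxU, ⟨e⟩⟩ := hN.exists_trivialization x
  obtain ⟨_, ⟨_, ⟨f, rfl⟩, rfl⟩, hxf, hfU⟩ :=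
    PrimeSpectrum.isBasis_basic_opens.exists_subset_of_mem_open hxU U.2
  refine ⟨f, hxf, ⟨?_⟩⟩
  have hr : Set.range (awayMap f).base ⊆ Set.range U.ι.base := by
    rw [Scheme.Opens.range_ι]
    exact (PrimeSpectrum.localization_away_comap_range (Localization.Away f) f).le.trans hfU
  exact (Scheme.Modules.restrictFunctorIsoPullback (awayMap f)).app N ≪≫
    (Scheme.Modules.pullbackCongr (IsOpenImmersion.lift_fac U.ι (awayMap f) hr).symm).app N ≪≫
    ((Scheme.Modules.pullbackComp _ U.ι).app N).symm ≪≫
    (Scheme.Modules.pullback _).mapIso e ≪≫ unitIso _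

end FermatAgent.Pic.Dict
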