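import Mathlib
import Fermat.Prelude.Def_AlgebraicGeometry_RelativePicardFunctor

/-!
# Global sections of inverse images of sheaves of modules

For a morphism `j : Y ⟶ X` we write `Sec j L` for the global sections of `j^* L`.  A commuting
triangle of morphisms induces a semilinear map of sections, compatible with composition.
-/

set_option autoImplicit false

noncomputable section

universe u

open CategoryTheory Limits AlgebraicGeometry

namespace FermatAgent.Pic.Dict

variable {X Y Z W : Scheme.{u}}

/-- The unit of the inverse image on sections over an open. -/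
def η (f : X ⟶ Y) (L : Y.Modules) (U : Y.Opens) :
    Γ(L, U) → Γ((Scheme.Modules.pullback f).obj L, f ⁻¹ᵁ U) := fun x =>
  ((Scheme.Modules.pullbackPushforwardAdjunction f).unit.app L).app U x

/-- The unit on sections is additive. -/
theorem η_add (f : X ⟶ Y) (L : Y.Modules) (U : Y.Opens) (x y : Γ(L, U)) :
    η f L U (x + y) = η f L U x + η f L U y :=
  map_add (((Scheme.Modules.pullbackPushforwardAdjunction f).unit.app L).app U).hom x y

/-- The unit on sections is semilinear. -/
theorem η_smul (f : X ⟶ Y) (L : Y.Modules) (U : Y.Opens) (r : Γ(Y, U)) (x : Γ(L, U)) :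
    η f L U (r • x) = f.app U r • η f L U x :=
  Scheme.Modules.Hom.app_smul ((Scheme.Modules.pullbackPushforwardAdjunction f).unit.app L) r x

/-- The unit on sections is natural in the module. -/
theorem η_natural (f : X ⟶ Y) {L L' : Y.Modules} (φ : L ⟶ L') (U : Y.Opens) (x : Γ(L, U)) :
    ((Scheme.Modules.pullback f).map φ).app (f ⁻¹ᵁ U) (η f L U x) = η f L' U (φ.app U x) :=
  (congr($((Scheme.Modules.pullbackPushforwardAdjunction f).unit.naturality φ).app U x)).symm

/-- The unit of a composite is the composite of the units. -/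
theorem η_comp (f : X ⟶ Y) (g : Y ⟶ Z) (L : Z.Modules) (U : Z.Opens) (x : Γ(L, U)) :
    ((Scheme.Modules.pullbackComp f g).hom.app L).app (f ⁻¹ᵁ (g ⁻¹ᵁ U))
      (η f _ (g ⁻¹ᵁ U) (η g L U x)) = η (f ≫ g) L U x := by
  have h := unit_conjugateEquiv
    ((Scheme.Modules.pullbackPushforwardAdjunction g).comp
      (Scheme.Modules.pullbackPushforwardAdjunction f))
    (Scheme.Modules.pullbackPushforwardAdjunction (f ≫ g))
    (Scheme.Modules.pullbackComp f g).inv L
  rw [Scheme.Modules.conjugateEquiv_pullbackComp_inv] at h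
  have h' : η f _ (g ⁻¹ᵁ U) (η g L U x) =
      ((Scheme.Modules.pullbackComp f g).inv.app L).app (f ⁻¹ᵁ (g ⁻¹ᵁ U))
        (η (f ≫ g) L U x) := congr($(h).app U x)
  rw [h']
  exact congr($((Scheme.Modules.pullbackComp f g).inv_hom_id_app L).app _ (η (f ≫ g) L U x))

/-- The global sections of an inverse image. -/
abbrev Sec (j : Y ⟶ X) (L : X.Modules) : Type u :=
  Γ((Scheme.Modules.pullback j).obj L, ⊤)

/-- The class of a global section in the sections of an inverse image. -/
def sec (j : Y ⟶ X) (L : X.Modules) (x : Γ(L, ⊤)) : Sec j L := η j L ⊤ x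

/-- The transport of sections along equal morphisms. -/
def secCongr {j j' : Y ⟶ X} (h : j = j') (L : X.Modules) : Sec j L →+ Sec j' L :=
  (((Scheme.Modules.pullbackCongr h).hom.app L).app ⊤).hom

/-- The inverse image of sections along a triangle. -/
def pull (g : Z ⟶ Y) {j : Y ⟶ X} {j' : Z ⟶ X} (h : g ≫ j = j') (L : X.Modules) :
    Sec j L →+ Sec j' L where
  toFun x := secCongr h L (((Scheme.Modules.pullbackComp g j).hom.app L).app ⊤ (η g _ ⊤ x))
  map_zero' := by
    have h0 : η g ((Scheme.Modules.pullback j).obj L) ⊤ 0 = 0 :=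
      map_zero (((Scheme.Modules.pullbackPushforwardAdjunction g).unit.app _).app ⊤).hom
    rw [h0]
    exact (congrArg (secCongr h L) (map_zero
      (((Scheme.Modules.pullbackComp g j).hom.app L).app ⊤).hom)).trans (map_zero _)
  map_add' x y := by
    rw [η_add, ← map_add]
    exact congrArg _ (map_add (((Scheme.Modules.pullbackComp g j).hom.app L).app ⊤).hom _ _)

/-- Pulling back along a map is the unit followed by the comparison of composites. -/
theorem pull_apply (g : Z ⟶ Y) (j : Y ⟶ X) (L : X.Modules) (x : Sec j L) :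
    pull g rfl L x = ((Scheme.Modules.pullbackComp g j).hom.app L).app ⊤ (η g _ ⊤ x) := rfl

/-- Pulling sections back is semilinear. -/
theorem pull_smul (g : Z ⟶ Y) {j : Y ⟶ X} {j' : Z ⟶ X} (h : g ≫ j = j') (L : X.Modules)
    (r : Γ(Y, ⊤)) (x : Sec j L) : pull g h L (r • x) = g.appTop r • pull g h L x := by
  subst h
  rw [pull_apply, pull_apply, η_smul]
  exact Scheme.Modules.Hom.app_smul ((Scheme.Modules.pullbackComp g j).hom.app L) (U := ⊤)
    (g.appTop r) _

/-- Pulling sections back is natural in the module. -/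
theorem pull_natural (g : Z ⟶ Y) {j : Y ⟶ X} {j' : Z ⟶ X} (h : g ≫ j = j') {L L' : X.Modules}
    (φ : L ⟶ L') (x : Sec j L) :
    ((Scheme.Modules.pullback j').map φ).app ⊤ (pull g h L x) =
      pull g h L' (((Scheme.Modules.pullback j).map φ).app ⊤ x) := by
  subst h
  rw [pull_apply, pull_apply, ← η_natural g ((Scheme.Modules.pullback j).map φ) ⊤ x]
  exact congr($((Scheme.Modules.pullbackComp g j).hom.naturality φ).app ⊤ (η g _ ⊤ x)).symm

/-- Associativity of the comparison isomorphisms. -/
theorem pullbackComp_assoc (f : W ⟶ Z) (g : Z ⟶ Y) (j : Y ⟶ X) (L : X.Modules) :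
    (Scheme.Modules.pullback f).map ((Scheme.Modules.pullbackComp g j).hom.app L) ≫
        (Scheme.Modules.pullbackComp f (g ≫ j)).hom.app L =
      (Scheme.Modules.pullbackComp f g).hom.app ((Scheme.Modules.pullback j).obj L) ≫
        (Scheme.Modules.pullbackComp (f ≫ g) j).hom.app L ≫
          (Scheme.Modules.pullbackCongr (Category.assoc f g j)).hom.app L := by
  have h := congr_app (Scheme.Modules.pseudofunctor_associativity f g j) L
  simp only [NatTrans.comp_app, Functor.whiskerRight_app, Functor.whiskerLeft_app,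
    Functor.associator_hom_app, eqToHom_app] at h
  rw [Category.id_comp] at h
  have h2 : (Scheme.Modules.pullbackCongr (Category.assoc f g j)).hom.app L =
      eqToHom (by rw [Category.assoc]) := by
    simp [Scheme.Modules.pullbackCongr]
  rw [h2, ← cancel_epi ((Scheme.Modules.pullback f).map
      ((Scheme.Modules.pullbackComp g j).inv.app L)),
    ← cancel_epi ((Scheme.Modules.pullbackComp f (g ≫ j)).inv.app L), reassoc_of% h]
  simp [← Functor.map_comp_assoc]

/-- Pulling sections back is compatible with composition. -/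
theorem pull_pull {g : Z ⟶ Y} {g' : W ⟶ Z} {j : Y ⟶ X} {j' : Z ⟶ X} {j'' : W ⟶ X}
    (h : g ≫ j = j') (h' : g' ≫ j' = j'') (L : X.Modules) (x : Sec j L) :
    pull g' h' L (pull g h L x) =
      pull (g' ≫ g) (show (g' ≫ g) ≫ j = j'' by rw [Category.assoc, h, h']) L x := by
  subst h h'
  show ((Scheme.Modules.pullbackComp g' (g ≫ j)).hom.app L).app ⊤ (η g' _ ⊤ (pull g rfl L x)) =
    secCongr (Category.assoc g' g j) L
      (((Scheme.Modules.pullbackComp (g' ≫ g) j).hom.app L).app ⊤ (η (g' ≫ g) _ ⊤ x))
  rw [pull_apply, ← η_comp g' g _ ⊤ x]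
  refine Eq.trans ?_ congr($(pullbackComp_assoc g' g j L).app ⊤ (η g' _ ⊤ (η g _ ⊤ x)))
  exact congrArg _ (η_natural g' ((Scheme.Modules.pullbackComp g j).hom.app L) ⊤ _).symm

/-- Pulling sections back depends only on the map. -/
theorem pull_congr {g g' : Z ⟶ Y} (hg : g = g') {j : Y ⟶ X} {j' : Z ⟶ X} (h : g ≫ j = j')
    (h' : g' ≫ j = j') (L : X.Modules) (x : Sec j L) :
    pull g h L x = pull g' h' L x := by
  subst hg
  rfl

/-- Global sections pull back to their classes. -/
theorem pull_sec (g : Z ⟶ Y) {j : Y ⟶ X} {j' : Z ⟶ X} (h : g ≫ j = j') (L : X.Modules)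
    (x : Γ(L, ⊤)) : pull g h L (sec j L x) = sec j' L x := by
  subst h
  exact η_comp g j L ⊤ x

/-! ### The inverse image of a further morphism of targets -/

variable {X' : Scheme.{u}}

/-- Sections of an inverse image of an inverse image. -/
def secComp (j : Y ⟶ X') (g : X' ⟶ X) (L : X.Modules) :
    Sec j ((Scheme.Modules.pullback g).obj L) →+ Sec (j ≫ g) L :=
  (((Scheme.Modules.pullbackComp j g).hom.app L).app ⊤).hom

/-- Sections of a composite inverse image are those of the iterated one. -/
theorem secComp_bijective (j : Y ⟶ X') (g : X' ⟶ X) (L : X.Modules) :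
    Function.Bijective (secComp j g L) :=
  ConcreteCategory.bijective_of_isIso (((Scheme.Modules.pullbackComp j g).hom.app L).app ⊤)

/-- The comparison of sections of composites is linear. -/
theorem secComp_smul (j : Y ⟶ X') (g : X' ⟶ X) (L : X.Modules) (r : Γ(Y, ⊤))
    (x : Sec j ((Scheme.Modules.pullback g).obj L)) :
    secComp j g L (r • x) = r • secComp j g L x :=
  Scheme.Modules.Hom.app_smul _ r x

/-- The comparison of sections of composites commutes with restriction. -/
theorem secComp_pull (t : Z ⟶ Y) {j : Y ⟶ X'} {j' : Z ⟶ X'} (h : t ≫ j = j') (g : X' ⟶ X)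
    (L : X.Modules) (x : Sec j ((Scheme.Modules.pullback g).obj L)) :
    secComp j' g L (pull t h _ x) =
      pull t (show t ≫ j ≫ g = j' ≫ g by rw [← Category.assoc, h]) L (secComp j g L x) := by
  subst h
  show secComp (t ≫ j) g L (pull t rfl _ x) =
    secCongr (Category.assoc t j g).symm L
      (((Scheme.Modules.pullbackComp t (j ≫ g)).hom.app L).app ⊤
        (η t _ ⊤ (((Scheme.Modules.pullbackComp j g).hom.app L).app ⊤ x)))
  rw [pull_apply]
  have e : η t _ ⊤ (((Scheme.Modules.pullbackComp j g).hom.app L).app ⊤ x) =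
      ((Scheme.Modules.pullback t).map ((Scheme.Modules.pullbackComp j g).hom.app L)).app ⊤
        (η t _ ⊤ x) :=
    (η_natural t ((Scheme.Modules.pullbackComp j g).hom.app L) ⊤ x).symm
  rw [e]
  have key : (Scheme.Modules.pullback t).map ((Scheme.Modules.pullbackComp j g).hom.app L) ≫
      (Scheme.Modules.pullbackComp t (j ≫ g)).hom.app L ≫
        (Scheme.Modules.pullbackCongr (Category.assoc t j g).symm).hom.app L =
      (Scheme.Modules.pullbackComp t j).hom.app ((Scheme.Modules.pullback g).obj L) ≫
        (Scheme.Modules.pullbackComp (t ≫ j) g).hom.app L := by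
    rw [← Category.assoc, pullbackComp_assoc]
    simp [Scheme.Modules.pullbackCongr]
  exact congr($(key).app ⊤ (η t _ ⊤ x)).symm

/-! ### The unit sheaf -/

/-- The structure sheaf as a module. -/
abbrev unitMod (X : Scheme.{u}) : X.Modules := SheafOfModules.unit X.ringCatSheaf

/-- The inverse image of the structure sheaf. -/
def unitIso (j : Y ⟶ X) : (Scheme.Modules.pullback j).obj (unitMod X) ≅ unitMod Y :=
  Scheme.Modules.pullbackUnitIso j

/-- The section one of the structure sheaf. -/
abbrev oneSec (X : Scheme.{u}) : Γ(unitMod X, ⊤) := (1 : Γ(X, ⊤))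

set_option backward.isDefEq.respectTransparency.types false in
/-- The trivialisation of the inverse image of the structure sheaf sends one to one. -/
theorem unitIso_sec_one (j : Y ⟶ X) :
    (unitIso j).hom.app ⊤ (sec j (unitMod X) (oneSec X)) = oneSec Y := by
  have h := (Scheme.Modules.pullbackPushforwardAdjunction j).homEquiv_unit
    (X := unitMod X) (Y := unitMod Y) (f := (unitIso j).hom)
  let w : unitMod X ⟶ (Scheme.Modules.pushforward j).obj (unitMod Y) :=
    SheafOfModules.unitToPushforwardObjUnit j.toRingCatSheafHom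
  have h2 : (Scheme.Modules.pullbackPushforwardAdjunction j).homEquiv (unitMod X) (unitMod Y)
      (unitIso j).hom = w :=
    ((SheafOfModules.pullbackPushforwardAdjunction
      j.toRingCatSheafHom).homEquiv _ _).apply_symm_apply _
  rw [h2] at h
  exact (congr(($h).app ⊤ (oneSec X))).symm.trans (map_one j.appTop.hom)

/-- The sections of the inverse image of the structure sheaf are the functions. -/
theorem sec_one_bijective (j : Y ⟶ X) :
    Function.Bijective fun r : Γ(Y, ⊤) => r • sec j (unitMod X) (oneSec X) := by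
  have hb : Function.Bijective ((unitIso j).hom.app ⊤) := ConcreteCategory.bijective_of_isIso _
  rw [← Function.Bijective.of_comp_iff' hb]
  have : (fun r : Γ(Y, ⊤) => (unitIso j).hom.app ⊤ (r • sec j (unitMod X) (oneSec X))) =
      fun r => r • oneSec Y :=
    funext fun r => by rw [Scheme.Modules.Hom.app_smul, unitIso_sec_one]
  rw [Function.comp_def, this]
  exact ⟨fun a b h => (mul_one (a : Γ(Y, ⊤))).symm.trans (h.trans (mul_one (b : Γ(Y, ⊤)))),
    fun b => ⟨b, mul_one (M := Γ(Y, ⊤)) b⟩⟩

end FermatAgent.Pic.Dict
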