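import Fermat.Agent.Pic.Bridge.Chart
import Fermat.Agent.Pic.Bridge.Over

/-!
# The bundle of an invertible module

Its sections on the overlap form an invertible module, and the sections on the two charts are
lattices in it with dual bases.
-/

set_option autoImplicit false

noncomputable section

universe u

open CategoryTheory CategoryTheory.Limits AlgebraicGeometry NeronModelInfra
  AlgebraicGeometry.RelPicard
open scoped TensorProduct

namespace FermatAgent.Pic.Dict

variable {k : Type u} [Field k] {C : Scheme.{u}} {c : C ⟶ Spec (CommRingCat.of k)}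
  {ε : SchemeHomOver (𝟙 (Spec (CommRingCat.of k))) c} (P : Pres c ε)
  (A : Type u) [CommRing A] [Algebra k A]

/-- The ring of the first chart. -/
def R0 : CommRingCat.{u} := CommRingCat.of (P.X.S0 A)

/-- The ring of the second chart. -/
def R1 : CommRingCat.{u} := CommRingCat.of (P.X.S1 A)

/-- The ring of the overlap. -/
def R01 : CommRingCat.{u} := CommRingCat.of (P.X.S01 A)

/-- Restriction from the first chart. -/
abbrev r0 : R0 P A ⟶ R01 P A := CommRingCat.ofHom (P.X.res0 A).toRingHom

/-- Restriction from the second chart. -/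
abbrev r1 : R1 P A ⟶ R01 P A := CommRingCat.ofHom (P.X.res1 A).toRingHom

/-- The first chart. -/
def j0 : Spec (R0 P A) ⟶ CA A c := chart A P.i0 P.over0

/-- The second chart. -/
def j1 : Spec (R1 P A) ⟶ CA A c := chart A P.i1 P.over1

/-- The overlap. -/
def j01 : Spec (R01 P A) ⟶ CA A c := Spec.map (r0 P A) ≫ j0 P A

/-- The overlap as a chart of `C`. -/
def i01 : Spec (CommRingCat.of P.X.R01) ⟶ C :=
  Spec.map (CommRingCat.ofHom (algebraMap P.X.R0 P.X.R01)) ≫ P.i0

/-- The overlap, as a chart of the curve, lies over the base field. -/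
theorem over01 : i01 P ≫ c = Spec.map (CommRingCat.ofHom (algebraMap k P.X.R01)) := by
  rw [i01, Category.assoc, P.over0, ← Spec.map_comp, ← CommRingCat.ofHom_comp,
    ← IsScalarTower.algebraMap_eq k P.X.R0 P.X.R01]

/-- The overlap over `A` is the base change of the overlap as a chart. -/
theorem j01_eq_chart : j01 P A = chart A (i01 P) (over01 P) :=
  chart_res A P.i0 P.over0 (IsScalarTower.toAlgHom k P.X.R0 P.X.R01) _ (over01 P) rfl

/-- The overlap factors through the second chart by its restriction map. -/
theorem r1_j1 : Spec.map (r1 P A) ≫ j1 P A = j01 P A :=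
  (chart_res A P.i1 P.over1 (IsScalarTower.toAlgHom k P.X.R1 P.X.R01) _ (over01 P)
    P.overlap.w.symm).trans (j01_eq_chart P A).symm

variable {A}

/-- The module of sections on the overlap. -/
abbrev Mid (L : (CA A c).Modules) : Type u := Sec (j01 P A) L

/-- Restriction of sections from the first chart. -/
def res0M (L : (CA A c).Modules) : Sec (j0 P A) L →+ Mid P L :=
  pull (Spec.map (r0 P A)) rfl L

/-- Restriction of sections from the second chart. -/
def res1M (L : (CA A c).Modules) : Sec (j1 P A) L →+ Mid P L :=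
  pull (Spec.map (r1 P A)) (r1_j1 P A) L

/-- Restriction of sections from the second chart is semilinear. -/
theorem res1M_smul (L : (CA A c).Modules) (r : R1 P A) (x : Sec (j1 P A) L) :
    res1M P L (r • x) = r1 P A r • res1M P L x := pull_smul_spec (r1 P A) _ L r x

instance midModule (L : (CA A c).Modules) : Module (P.X.S01 A) (Mid P L) :=
  (inferInstance : Module (R01 P A) (Sec (j01 P A) L))

instance midModuleA (L : (CA A c).Modules) : Module A (Mid P L) :=
  Module.compHom (Mid P L) (algebraMap A (P.X.S01 A))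

instance midTower (L : (CA A c).Modules) : IsScalarTower A (P.X.S01 A) (Mid P L) :=
  IsScalarTower.of_algebraMap_smul fun _ _ => rfl

variable {P}

theorem mem_range_iff_of_dualBasis {R S : CommRingCat.{u}} (φ : R ⟶ S) {N N' : Type u}
    [AddCommGroup N] [AddCommGroup N'] [Module R N] [Module S N'] (res : N →+ N')
    (hres : ∀ (r : R) (x : N), res (r • x) = φ r • res x) {n : ℕ} (p : Fin n → N)
    (f : Fin n → N →ₗ[R] R) (f' : Fin n → N' →ₗ[S] S)
    (hf : ∀ i x, f' i (res x) = φ (f i x)) (hs : ∀ y, ∑ i, f' i y • res (p i) = y) (y : N') :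
    (∃ x, res x = y) ↔ ∀ i, f' i y ∈ φ.hom.range := by
  refine ⟨fun ⟨x, hx⟩ i => ⟨f i x, (hx ▸ hf i x).symm⟩, fun h => ?_⟩
  choose r hr using h
  refine ⟨∑ i, r i • p i, ?_⟩
  rw [map_sum]
  conv_rhs => rw [← hs y]
  exact Finset.sum_congr rfl fun i _ => by rw [hres]; exact congrArg (· • _) (hr i)

variable (P)

/-- The lattice given by the sections on a chart. -/
theorem exists_lat {R S : CommRingCat.{u}} (φ : R ⟶ S) {X : Scheme.{u}} {j : Spec R ⟶ X}
    {j' : Spec S ⟶ X} (h : Spec.map φ ≫ j = j') {L : X.Modules}
    (hL : Scheme.Modules.IsInvertible L) :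
    ∃ l : Lat φ.hom (Sec j' L), ∀ m,
      (∀ i, l.φ i m ∈ φ.hom.range) ↔ ∃ x, pull (Spec.map φ) h L x = m := by
  obtain ⟨n, p, f, hs, -, -⟩ := exists_sec_dualBasis j hL
  obtain ⟨f', hf', hs'⟩ := exists_pull_dualBasis φ h hL p f hs
  exact ⟨⟨n, fun i => pull (Spec.map φ) h L (p i), f', hs',
    fun i j => ⟨f i (p j), (hf' i (p j)).symm⟩⟩,
    fun m => (mem_range_iff_of_dualBasis φ (pull (Spec.map φ) h L) (pull_smul_spec φ h L) p f f'
      hf' hs' m).symm⟩

/-- The sections on the first chart form a lattice with a dual basis. -/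
theorem exists_lat0 {L : (CA A c).Modules} (hL : Scheme.Modules.IsInvertible L) :
    ∃ l : Lat (P.X.res0 A).toRingHom (Mid P L), ∀ m,
      (∀ i, l.φ i m ∈ (P.X.res0 A).toRingHom.range) ↔ ∃ x, res0M P L x = m :=
  exists_lat (r0 P A) (j := j0 P A) (j' := j01 P A) rfl hL

/-- The sections on the second chart form a lattice with a dual basis. -/
theorem exists_lat1 {L : (CA A c).Modules} (hL : Scheme.Modules.IsInvertible L) :
    ∃ l : Lat (P.X.res1 A).toRingHom (Mid P L), ∀ m,
      (∀ i, l.φ i m ∈ (P.X.res1 A).toRingHom.range) ↔ ∃ x, res1M P L x = m :=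
  exists_lat (r1 P A) (r1_j1 P A) hL

/-- The sections on the overlap form an invertible module. -/
theorem invertible_mid {L : (CA A c).Modules} (hL : Scheme.Modules.IsInvertible L) :
    Module.Invertible (P.X.S01 A) (Mid P L) :=
  invertible_sec (j01 P A) hL

/-- The bundle of an invertible module. -/
def toBdl (L : (CA A c).Modules) (hL : Scheme.Modules.IsInvertible L) : Bdl P.X A :=
  { M := Mid P L
    inv := invertible_mid P hL
    l0 := (exists_lat0 P hL).choose
    l1 := (exists_lat1 P hL).choose }

/-- The first lattice of the bundle consists of the sections on the first chart. -/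
theorem mem_L0_toBdl {L : (CA A c).Modules} (hL : Scheme.Modules.IsInvertible L)
    (m : (toBdl P L hL).M) : m ∈ (toBdl P L hL).L0 ↔ ∃ x, res0M P L x = m :=
  Bdl.mem_L0.trans ((exists_lat0 P hL).choose_spec m)

/-- The second lattice of the bundle consists of the sections on the second chart. -/
theorem mem_L1_toBdl {L : (CA A c).Modules} (hL : Scheme.Modules.IsInvertible L)
    (m : (toBdl P L hL).M) : m ∈ (toBdl P L hL).L1 ↔ ∃ x, res1M P L x = m :=
  Bdl.mem_L1.trans ((exists_lat1 P hL).choose_spec m)

end FermatAgent.Pic.Dict
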